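import Fermat.Agent.Corollaries.Bin.Zeta

/-!
# Representation numbers of the principal form

`K = ℚ(θ)`, `θ² + b θ + c = 0`, `D = b² - 4c < 0` fundamental, `𝓞 K` principal: the number of
representations of `n` by `x² + b x y + c y²` is the number of representations of `1` times the
number of ideals of norm `n`.
-/

set_option autoImplicit false

open QuadraticAlgebra NumberField

namespace Fermat.Agent.Cor.Bin

/-- the number of representations of `n` by `x² + b x y + c y²` -/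
noncomputable def reprs (b c : ℤ) (n : ℕ) : ℕ :=
  Nat.card {v : ℤ × ℤ // v.1 ^ 2 + b * v.1 * v.2 + c * v.2 ^ 2 = n}

section

variable {b c : ℤ} [hF : Fact (∀ r : ℚ, r ^ 2 ≠ -(((1 : ℤ) : ℚ) * c) + -(b : ℚ) * r)]

theorem norm_nonneg' (hD : IsFundDiscr (b ^ 2 - 4 * c)) (hneg : b ^ 2 - 4 * c < 0)
    (z : 𝓞 (QF 1 b c)) : 0 ≤ Algebra.norm ℤ z := by
  obtain ⟨x, y, rfl⟩ := exists_coord hD z
  rw [norm_coord]
  nlinarith [sq_nonneg (2 * x - b * y), mul_nonneg (neg_pos.mpr hneg).le (sq_nonneg y)]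

theorem reprs_eq (hD : IsFundDiscr (b ^ 2 - 4 * c)) (n : ℕ) :
    reprs b c n = Nat.card {z : 𝓞 (QF 1 b c) // Algebra.norm ℤ z = n} := by
  refine Nat.card_congr (Equiv.ofBijective (fun v =>
    ⟨(v.1.1 : 𝓞 (QF 1 b c)) + ((-v.1.2 : ℤ) : 𝓞 (QF 1 b c)) * thetaQ 1 b c, ?_⟩) ⟨?_, ?_⟩)
  · rw [norm_coord]
    linear_combination v.2
  · rintro ⟨⟨x, y⟩, h⟩ ⟨⟨x', y'⟩, h'⟩ e
    have e1 := congrArg (fun z => z.1) e
    obtain ⟨h1, h2⟩ := coord_inj e1
    have h3 : x = x' := h1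
    have h4 : y = y' := neg_injective h2
    subst h3 h4
    rfl
  · rintro ⟨z, hz⟩
    obtain ⟨x, y, rfl⟩ := exists_coord hD z
    refine ⟨⟨(x, -y), ?_⟩, Subtype.ext ?_⟩
    · rw [norm_coord] at hz
      change x ^ 2 + b * x * (-y) + c * (-y) ^ 2 = n
      linear_combination hz
    · change (x : 𝓞 (QF 1 b c)) + ((- -y : ℤ) : 𝓞 (QF 1 b c)) * thetaQ 1 b c = _
      rw [neg_neg]

theorem isUnit_of_norm_one (z : 𝓞 (QF 1 b c)) (h : Algebra.norm ℤ z = 1) : IsUnit z := by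
  rw [← Ideal.span_singleton_eq_top, ← Ideal.absNorm_eq_one_iff, Ideal.absNorm_span_singleton, h]
  rfl

theorem norm_of_isUnit (hD : IsFundDiscr (b ^ 2 - 4 * c)) (hneg : b ^ 2 - 4 * c < 0)
    {z : 𝓞 (QF 1 b c)} (h : IsUnit z) : Algebra.norm ℤ z = 1 := by
  have h1 := Int.isUnit_iff.mp (h.map (Algebra.norm ℤ))
  have h2 := norm_nonneg' hD hneg z
  omega

/-- **The number of representations and the number of ideals.** -/
theorem reprs_eq_mul (hD : IsFundDiscr (b ^ 2 - 4 * c)) (hneg : b ^ 2 - 4 * c < 0)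
    [hP : IsPrincipalIdealRing (𝓞 (QF 1 b c))] {n : ℕ} (hn : n ≠ 0) :
    reprs b c n = reprs b c 1 * Nat.card {I : Ideal (𝓞 (QF 1 b c)) // Ideal.absNorm I = n} := by
  rw [reprs_eq hD, reprs_eq hD]
  refine Eq.trans ?_ (mul_comm _ _)
  rw [← Nat.card_prod]
  symm
  let g : Ideal (𝓞 (QF 1 b c)) → 𝓞 (QF 1 b c) := fun I => Submodule.IsPrincipal.generator I
  have hg : ∀ I, Ideal.span {g I} = I := fun I => Ideal.span_singleton_generator I
  have hnorm : ∀ I : Ideal (𝓞 (QF 1 b c)), Ideal.absNorm I = n → Algebra.norm ℤ (g I) = n := by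
    intro I hI
    have h1 := hI
    rw [← hg I, Ideal.absNorm_span_singleton] at h1
    have h2 := norm_nonneg' hD hneg (g I)
    omega
  refine Nat.card_congr (Equiv.ofBijective (fun x => ⟨g x.1.1 * x.2.1, ?_⟩) ⟨?_, ?_⟩)
  · rw [map_mul, hnorm _ x.1.2, x.2.2]
    simp
  · rintro ⟨⟨I, hI⟩, ⟨u, hu⟩⟩ ⟨⟨J, hJ⟩, ⟨w, hw⟩⟩ h
    have h1 : g I * u = g J * w := congrArg (fun z => z.1) h
    have hu' := isUnit_of_norm_one u (by simpa using hu)
    have hw' := isUnit_of_norm_one w (by simpa using hw)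
    have h2 : I = J := by
      rw [← hg I, ← hg J, ← Ideal.span_singleton_mul_right_unit hu' (g I),
        ← Ideal.span_singleton_mul_right_unit hw' (g J), h1]
    subst h2
    have h3 : g I ≠ 0 := by
      intro h0
      have := hnorm I hI
      rw [h0, Algebra.norm_zero] at this
      exact hn (by exact_mod_cast this.symm)
    have h4 : u = w := mul_left_cancel₀ h3 h1
    subst h4
    rfl
  · rintro ⟨z, hz⟩
    have hI : Ideal.absNorm (Ideal.span {z}) = n := by
      rw [Ideal.absNorm_span_singleton, hz, Int.natAbs_natCast]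
    have h1 : Associated (g (Ideal.span {z})) z := by
      rw [← Ideal.span_singleton_eq_span_singleton]
      exact hg _
    obtain ⟨u, hu⟩ := h1
    refine ⟨⟨⟨Ideal.span {z}, hI⟩, ⟨(u : 𝓞 (QF 1 b c)), ?_⟩⟩, Subtype.ext hu⟩
    rw [norm_of_isUnit hD hneg u.isUnit, Nat.cast_one]

omit hF in
theorem finrank_QF' : Module.finrank ℚ (QF 1 b c) = 2 :=
  QuadraticAlgebra.finrank_eq_two _ _

/-- **Dirichlet's formula** for the principal form of a fundamental discriminant `D < 0` of class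
number one. -/
theorem reprs_eq_sum (hD : IsFundDiscr (b ^ 2 - 4 * c)) (hneg : b ^ 2 - 4 * c < 0)
    [hP : IsPrincipalIdealRing (𝓞 (QF 1 b c))] {κ : ℕ →*₀ ℤ}
    (hκ : ∀ p : ℕ, p.Prime → (nroots b c p : ℤ) = 1 + κ p) {n : ℕ} (hn : n ≠ 0) :
    (reprs b c n : ℤ) = reprs b c 1 * ∑ d ∈ n.divisors, κ d := by
  rw [reprs_eq_mul hD hneg hn, Nat.cast_mul, card_absNorm_eq_sum finrank_QF' (κ := κ) _ hn]
  intro p hp
  rw [card_absNorm_prime hD hp, hκ p hp]

end

/-- the number of units -/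
theorem reprs_one_of_lt {b c : ℤ} (h : b ^ 2 - 4 * c < -4) : reprs b c 1 = 2 := by
  have h1 : ∀ v : ℤ × ℤ, v.1 ^ 2 + b * v.1 * v.2 + c * v.2 ^ 2 = (1 : ℕ) ↔
      v = (1, 0) ∨ v = (-1, 0) := by
    rintro ⟨x, y⟩
    constructor
    · intro h2
      have h2' : x ^ 2 + b * x * y + c * y ^ 2 = 1 := by simpa using h2
      have h3 : (2 * x + b * y) ^ 2 + (4 * c - b ^ 2) * y ^ 2 = 4 := by linarith
      have hy : y = 0 := by
        by_contra hy
        have h4 : 1 ≤ y ^ 2 := by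
          have : 0 < y ^ 2 := by positivity
          omega
        nlinarith [sq_nonneg (2 * x + b * y)]
      subst hy
      have h5 : x ^ 2 = 1 := by linarith
      have h6 : (x - 1) * (x + 1) = 0 := by linear_combination h5
      rcases mul_eq_zero.mp h6 with h7 | h7
      · left; rw [show x = 1 by omega]
      · right; rw [show x = -1 by omega]
    · rintro (h | h) <;> rw [h] <;> simp
  have h2 : {v : ℤ × ℤ | v.1 ^ 2 + b * v.1 * v.2 + c * v.2 ^ 2 = (1 : ℕ)} = {(1, 0), (-1, 0)} := by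
    ext v; simpa using h1 v
  rw [reprs, ← Set.coe_ofPred, h2, Nat.card_coe_set_eq, Set.ncard_pair (by decide)]

end Fermat.Agent.Cor.Bin
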