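import Fermat.Agent.Corollaries.Bin.Zeta

/-!
# The discriminant of `ℚ(θ)` and a criterion for class number one

`K = ℚ(θ)`, `θ² + b θ + c = 0`, `D = b² - 4c` fundamental.

* `discr_QF`: the discriminant of `K` is `D`;
* `isPrincipalIdealRing_of_nroots`: for `D < 0`, if `X² + b X + c` has no root modulo the primes `p`
  with `9 p² ≤ 4 |D|`, then `𝓞 K` is principal (Minkowski, Rabinowitsch).
-/

set_option autoImplicit false

open QuadraticAlgebra NumberField IsDedekindDomain Module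

namespace Fermat.Agent.Cor.Bin

section Trace

variable {R : Type*} [CommRing R] {a b : R}

theorem basis_zero : QuadraticAlgebra.basis a b 0 = ⟨1, 0⟩ := by
  apply (QuadraticAlgebra.basis a b).repr.injective
  rw [Basis.repr_self]
  ext i
  rw [QuadraticAlgebra.basis_repr_apply]
  fin_cases i <;> simp

theorem basis_one : QuadraticAlgebra.basis a b 1 = ⟨0, 1⟩ := by
  apply (QuadraticAlgebra.basis a b).repr.injective
  rw [Basis.repr_self]
  ext i
  rw [QuadraticAlgebra.basis_repr_apply]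
  fin_cases i <;> simp

theorem trace_eq' (z : QuadraticAlgebra R a b) :
    Algebra.trace R (QuadraticAlgebra R a b) z = 2 * z.re + b * z.im := by
  rw [Algebra.trace_eq_matrix_trace (QuadraticAlgebra.basis a b), Matrix.trace_fin_two,
    Algebra.leftMulMatrix_eq_repr_mul, Algebra.leftMulMatrix_eq_repr_mul, basis_zero, basis_one,
    QuadraticAlgebra.basis_repr_apply, QuadraticAlgebra.basis_repr_apply]
  simp
  ring

/-- the discriminant of the basis `1, ω` -/
theorem discr_basis : Algebra.discr R (QuadraticAlgebra.basis a b) = b ^ 2 + 4 * a := by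
  rw [Algebra.discr_def, Matrix.det_fin_two]
  simp only [Algebra.traceMatrix_apply, Algebra.traceForm_apply, basis_zero, basis_one, trace_eq']
  simp
  ring

end Trace

variable {b c : ℤ} [hF : Fact (∀ r : ℚ, r ^ 2 ≠ -(((1 : ℤ) : ℚ) * c) + -(b : ℚ) * r)]

/-- **The discriminant.** -/
theorem discr_QF (hD : IsFundDiscr (b ^ 2 - 4 * c)) : discr (QF 1 b c) = b ^ 2 - 4 * c := by
  let e : QuadraticAlgebra ℤ (-c) (-b) ≃ₐ[ℤ] 𝓞 (QF 1 b c) := (equivO hD).toIntAlgEquiv
  rw [← NumberField.discr_eq_discr (QF 1 b c)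
    ((QuadraticAlgebra.basis (-c) (-b)).map e.toLinearEquiv)]
  have h : ⇑((QuadraticAlgebra.basis (-c) (-b)).map e.toLinearEquiv) =
      e ∘ (QuadraticAlgebra.basis (-c) (-b)) := by
    funext i
    rw [Basis.map_apply]
    rfl
  rw [h, ← Algebra.discr_eq_discr_of_algEquiv, discr_basis]
  ring

/-- for `D < 0` there is no real place -/
theorem nrRealPlaces_QF (hneg : b ^ 2 - 4 * c < 0) :
    InfinitePlace.nrRealPlaces (QF 1 b c) = 0 := by
  rw [nrRealPlaces_eq_zero_iff]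
  refine ⟨fun w => ?_⟩
  rw [← InfinitePlace.not_isReal_iff_isComplex]
  intro hw
  let φ : QF 1 b c →+* ℝ := InfinitePlace.embedding_of_isReal hw
  have h1 : φ ω * φ ω + (b : ℝ) * φ ω + c = 0 := by
    have h2 := congrArg φ (omega_sq 1 b c)
    rw [map_mul, map_sub, map_neg, map_mul, map_mul, map_intCast, map_intCast, map_intCast] at h2
    rw [h2]
    push_cast
    ring
  have h2 : ((b ^ 2 - 4 * c : ℤ) : ℝ) = (2 * φ ω + b) ^ 2 := by
    push_cast
    linear_combination (-4 : ℝ) * h1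
  have h3 : ((b ^ 2 - 4 * c : ℤ) : ℝ) < 0 := by exact_mod_cast hneg
  rw [h2] at h3
  exact absurd (sq_nonneg _) (not_le.mpr h3)

theorem nrComplexPlaces_QF (hneg : b ^ 2 - 4 * c < 0) :
    InfinitePlace.nrComplexPlaces (QF 1 b c) = 1 := by
  have h := InfinitePlace.card_add_two_mul_card_eq_rank (QF 1 b c)
  rw [nrRealPlaces_QF hneg] at h
  have h2 : finrank ℚ (QF 1 b c) = 2 := QuadraticAlgebra.finrank_eq_two _ _
  omega

/-- **A criterion for class number one.** -/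
theorem isPrincipalIdealRing_of_nroots (hD : IsFundDiscr (b ^ 2 - 4 * c))
    (hneg : b ^ 2 - 4 * c < 0)
    (h : ∀ p : ℕ, p.Prime → 9 * (p : ℤ) ^ 2 ≤ 4 * (4 * c - b ^ 2) → nroots b c p = 0) :
    IsPrincipalIdealRing (𝓞 (QF 1 b c)) := by
  have hfr : finrank ℚ (QF 1 b c) = 2 := QuadraticAlgebra.finrank_eq_two _ _
  refine RingOfIntegers.isPrincipalIdealRing_of_isPrincipal_of_norm_le_of_isPrime fun I hI hle => ?_
  -- the Minkowski bound
  have hM : ((Ideal.absNorm (I : Ideal (𝓞 (QF 1 b c))) : ℕ) : ℝ) ^ 2 * 9 ≤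
      4 * ((4 * c - b ^ 2 : ℤ) : ℝ) := by
    rw [nrComplexPlaces_QF hneg, hfr, discr_QF hD] at hle
    have h1 : ((b ^ 2 - 4 * c : ℤ) : ℝ) < 0 := by exact_mod_cast hneg
    rw [abs_of_neg h1] at hle
    have h2 : (-((b ^ 2 - 4 * c : ℤ) : ℝ)) = ((4 * c - b ^ 2 : ℤ) : ℝ) := by push_cast; ring
    rw [h2] at hle
    set N : ℝ := ((Ideal.absNorm (I : Ideal (𝓞 (QF 1 b c))) : ℕ) : ℝ) with hN
    set E : ℝ := ((4 * c - b ^ 2 : ℤ) : ℝ) with hE
    have hE0 : 0 ≤ E := by rw [← h2]; linarith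
    have h3 : (4 / Real.pi) ^ 1 * (((2 : ℕ).factorial : ℝ) / ((2 : ℕ) : ℝ) ^ 2 * √E) =
        2 / Real.pi * √E := by
      norm_num [Nat.factorial]
      ring
    have h4 : N ≤ 2 / Real.pi * √E := by
      rw [← h3]
      convert hle using 3
    have hpi := Real.pi_gt_three
    have h5 : 2 / Real.pi ≤ 2 / 3 := by
      apply div_le_div_of_nonneg_left <;> linarith
    have h6 : N ≤ 2 / 3 * √E :=
      h4.trans (mul_le_mul_of_nonneg_right h5 (Real.sqrt_nonneg _))
    have h7 : N ^ 2 ≤ (2 / 3 * √E) ^ 2 := pow_le_pow_left₀ (Nat.cast_nonneg _) h6 2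
    rw [mul_pow, Real.sq_sqrt hE0] at h7
    linarith
  have hM' : 9 * ((Ideal.absNorm (I : Ideal (𝓞 (QF 1 b c))) : ℕ) : ℤ) ^ 2 ≤
      4 * (4 * c - b ^ 2) := by
    have : ((9 * ((Ideal.absNorm (I : Ideal (𝓞 (QF 1 b c))) : ℕ) : ℤ) ^ 2 : ℤ) : ℝ) ≤
        ((4 * (4 * c - b ^ 2) : ℤ) : ℝ) := by
      push_cast at hM ⊢
      linarith
    exact_mod_cast this
  let v : HeightOneSpectrum (𝓞 (QF 1 b c)) := ⟨I, hI, nonZeroDivisors.coe_ne_zero I⟩
  obtain ⟨p, hp⟩ := EulerK.exists_natCast_mem v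
  rcases absNorm_eq_or p.2 hfr hp with h1 | h1
  · exfalso
    have h2 := h p p.2 (by
      rw [show ((p : ℕ) : ℤ) = ((Ideal.absNorm (I : Ideal (𝓞 (QF 1 b c))) : ℕ) : ℤ) from
        congrArg _ h1.symm]
      exact hM')
    rw [← card_absNorm_prime hD p.2] at h2
    have hfin : Finite {J : Ideal (𝓞 (QF 1 b c)) // Ideal.absNorm J = (p : ℕ)} :=
      (Ideal.finite_setOfPred_absNorm_eq (S := 𝓞 (QF 1 b c)) (p : ℕ)).to_subtype
    have hne : Nonempty {J : Ideal (𝓞 (QF 1 b c)) // Ideal.absNorm J = (p : ℕ)} := ⟨⟨I, h1⟩⟩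
    exact absurd h2 Nat.card_pos.ne'
  · have h2 : v.asIdeal ∣ Ideal.span {((p : ℕ) : 𝓞 (QF 1 b c))} :=
      Ideal.dvd_iff_le.mpr ((Ideal.span_singleton_le_iff_mem _).mpr hp)
    obtain ⟨J, hJ⟩ := h2
    have h3 := congrArg Ideal.absNorm hJ
    rw [map_mul, absNorm_span_natCast', hfr, h1] at h3
    have h4 : Ideal.absNorm J = 1 := by
      have : 0 < (p : ℕ) ^ 2 := pow_pos p.2.pos 2
      exact (Nat.eq_of_mul_eq_mul_left this (by rw [mul_one]; exact h3)).symm
    rw [Ideal.absNorm_eq_one_iff] at h4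
    rw [h4, Ideal.mul_top] at hJ
    change Submodule.IsPrincipal v.asIdeal
    rw [← hJ]
    exact ⟨⟨_, rfl⟩⟩

end Fermat.Agent.Cor.Bin
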