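import Fermat.Agent.Corollaries.Bin.Mass
import Fermat.Agent.Corollaries.Diri.Reps

/-!
# Dirichlet's class number formula for reduced forms

The statements of this file contain no number fields.

* `card_red_eq`: for every fundamental discriminant `D < 0`
  `2 |D| #{reduced forms of discriminant D} = - w ∑_{a < |D|} a (D / a)`, `w = 6, 4, 2` for `D = -3`,
  `D = -4`, `D < -4` (Dirichlet 1839);
* `exists_primitive_character`: for every fundamental discriminant `D` (positive or negative) the
  Kronecker symbol `a ↦ (D / a)` is a primitive quadratic Dirichlet character modulo `|D|`, even if and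
  only if `D > 0`; `kron_add_natAbs`: it has the period `|D|` (Euler's form of quadratic reciprocity).
-/

set_option autoImplicit false

open QuadraticAlgebra NumberField
open scoped nonZeroDivisors

namespace Fermat.Agent.Cor.Bin

open Ray

theorem kron_eq_diri (D : ℤ) {a : ℕ} (ha : a ≠ 0) : kron D a = Diri.kron D a := by
  change (if a = 0 then 0 else ZMod.χ₈ D ^ a.factorization 2 * jacobiSym D (ordCompl[2] a)) = _
  rw [if_neg ha]
  rfl

section

variable {b c : ℤ} [hF : Fact (∀ r : ℚ, r ^ 2 ≠ -(((1 : ℤ) : ℚ) * c) + -(b : ℚ) * r)]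

/-- the number of units is the number of representations of `1` -/
theorem reprs_one_eq (hD : IsFundDiscr (b ^ 2 - 4 * c)) (hneg : b ^ 2 - 4 * c < 0) :
    reprs b c 1 = Units.torsionOrder (QF 1 b c) := by
  have hr : Units.rank (QF 1 b c) = 0 := by
    refine Diri.rank_eq_zero_of_imag finrank_QF' ?_
    rw [nrComplexPlaces_QF hneg]
    exact one_ne_zero
  rw [← Diri.card_units hr, reprs_eq hD]
  symm
  refine Nat.card_congr (Equiv.ofBijective (fun u =>
    ⟨(u : 𝓞 (QF 1 b c)), by rw [norm_of_isUnit hD hneg u.isUnit, Nat.cast_one]⟩) ⟨?_, ?_⟩)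
  · intro u w h
    exact Units.ext (congrArg (fun x => x.1) h)
  · rintro ⟨z, hz⟩
    obtain ⟨u, hu⟩ := isUnit_of_norm_one z (by simpa using hz)
    exact ⟨u, Subtype.ext hu⟩

end

/-- `D = b² - 4c` with the right number of automorphs -/
theorem exists_reprs {D : ℤ} (hD : IsFundDiscr D) (hneg : D < 0) :
    ∃ b c : ℤ, D = b ^ 2 - 4 * c ∧ reprs b c 1 = unitsOf D := by
  by_cases h3 : D = -3
  · exact ⟨1, 1, by rw [h3]; norm_num, by rw [h3, reprs_three]; rfl⟩
  by_cases h4 : D = -4
  · exact ⟨0, 1, by rw [h4]; norm_num, by rw [h4, reprs_four]; rfl⟩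
  obtain ⟨b, c, hbc⟩ := hD.exists_eq
  have h5 : D < -4 := by
    have : D % 4 = 0 ∨ D % 4 = 1 := by
      rcases hD with ⟨h, -⟩ | ⟨m, rfl, -⟩
      · exact Or.inr h
      · left; omega
    omega
  exact ⟨b, c, hbc, by rw [reprs_one_of_lt (by rw [← hbc]; exact h5), unitsOf, if_neg h3, if_neg h4]⟩

/-- **Dirichlet's class number formula** (1839), in terms of reduced forms: for every fundamental
discriminant `D < 0`, `2 |D|` times the number of reduced forms of discriminant `D` is
`- w ∑_{a < |D|} a (D / a)`. -/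
theorem card_red_eq {D : ℤ} (hD : IsFundDiscr D) (hneg : D < 0) :
    2 * |D| * (Nat.card (BForm.RForm D) : ℤ) =
      -(unitsOf D : ℤ) * ∑ a ∈ Finset.range D.natAbs, (a : ℤ) * kron D a := by
  obtain ⟨b, c, hbc, hw⟩ := exists_reprs hD hneg
  subst hbc
  have hF := fact_QF hneg
  have hd := discr_QF (b := b) (c := c) hD
  have h1 := Diri.class_number_kron (K := QF 1 b c) finrank_QF' (by rw [hd]; exact hneg)
  rw [classNumber_eq_card_red (K := QF 1 b c) finrank_QF' (by rw [hd]; exact hneg), hd,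
    ← reprs_one_eq hD hneg, hw] at h1
  rw [h1]
  congr 1
  refine Finset.sum_congr rfl fun a _ => ?_
  rcases eq_or_ne a 0 with rfl | ha
  · rw [Nat.cast_zero, zero_mul, zero_mul]
  · rw [kron_eq_diri _ ha]

/-- for `D < -4`: the number of reduced forms is `- (1 / |D|) ∑_{a < |D|} a (D / a)`. -/
theorem card_red_eq_of_lt {D : ℤ} (hD : IsFundDiscr D) (hneg : D < -4) :
    |D| * (Nat.card (BForm.RForm D) : ℤ) = -∑ a ∈ Finset.range D.natAbs, (a : ℤ) * kron D a := by
  have h := card_red_eq hD (by omega)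
  rw [unitsOf, if_neg (by omega), if_neg (by omega)] at h
  push_cast at h
  linarith

/-- **The Kronecker symbol of a fundamental discriminant is a primitive quadratic Dirichlet
character** modulo `|D|`; it is even if and only if `D > 0`. -/
theorem exists_primitive_character {D : ℤ} (hD : IsFundDiscr D) :
    ∃ χ : DirichletCharacter ℂ D.natAbs, χ.IsPrimitive ∧ χ ≠ 1 ∧ χ ^ 2 = 1 ∧
      (χ.Even ↔ 0 < D) ∧ ∀ a : ℕ, χ a = ((kron D a : ℤ) : ℂ) := by
  obtain ⟨b, c, rfl⟩ := hD.exists_eq
  have hF : Fact (∀ r : ℚ, r ^ 2 ≠ -(((1 : ℤ) : ℚ) * c) + -(b : ℚ) * r) :=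
    fact_of_not_isSquare (by rw [mul_one]; exact hD.not_isSquare)
  have hd := discr_QF (b := b) (c := c) hD
  obtain ⟨N, hN, χ, hNd, hprim, h1, hsq, -, -, hev, hk⟩ :=
    Diri.exists_kronecker_character (K := QF 1 b c) finrank_QF'
  rw [hd] at hNd hk
  subst hNd
  refine ⟨χ, hprim, h1, hsq, ?_, fun a => ?_⟩
  · rw [hev]
    constructor
    · intro h0
      rcases lt_trichotomy (b ^ 2 - 4 * c) 0 with h | h | h
      · rw [nrComplexPlaces_QF h] at h0
        exact absurd h0 one_ne_zero
      · exact absurd h (fun h => hD.not_isSquare (by rw [h]; exact IsSquare.zero))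
      · exact h
    · intro h
      exact Diri.nrComplexPlaces_eq_zero_of_discr_pos (K := QF 1 b c) finrank_QF' (by rw [hd]; exact h)
  · rcases eq_or_ne a 0 with rfl | ha
    · rw [map_zero, Nat.cast_zero, Int.cast_zero]
      refine MulChar.map_nonunit _ fun hu => ?_
      rw [isUnit_zero_iff] at hu
      have h2 : (b ^ 2 - 4 * c).natAbs = 1 := by
        have h3 : ((0 : ℕ) : ZMod (b ^ 2 - 4 * c).natAbs) = ((1 : ℕ) : ZMod (b ^ 2 - 4 * c).natAbs) := by
          rw [Nat.cast_zero, Nat.cast_one]; exact hu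
        rw [ZMod.natCast_eq_natCast_iff] at h3
        exact Nat.dvd_one.mp ((Nat.modEq_zero_iff_dvd).mp h3.symm)
      rcases Int.natAbs_eq (b ^ 2 - 4 * c) with h3 | h3
      · rw [h2] at h3
        exact hD.not_isSquare (by rw [h3]; exact ⟨1, rfl⟩)
      · rw [h2] at h3
        rcases hD with ⟨h4, -⟩ | ⟨m, h4, -⟩ <;> omega
    · rw [hk a ha, kron_eq_diri _ ha]

/-- **Euler's form of the quadratic reciprocity law**: `(D / a)` has the period `|D|`. -/
theorem kron_add_natAbs {D : ℤ} (hD : IsFundDiscr D) (a : ℕ) :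
    kron D (a + D.natAbs) = kron D a := by
  obtain ⟨χ, -, -, -, -, h⟩ := exists_primitive_character hD
  have h1 : ((kron D (a + D.natAbs) : ℤ) : ℂ) = ((kron D a : ℤ) : ℂ) := by
    rw [← h, ← h, Nat.cast_add, ZMod.natCast_self, add_zero]
  exact_mod_cast h1

end Fermat.Agent.Cor.Bin
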