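import Fermat.Agent.Corollaries.Bin.Local
import Mathlib.NumberTheory.NumberField.Completion.FinitePlace

/-!
# The Euler factor of a quadratic field at a prime
-/

set_option autoImplicit false

open QuadraticAlgebra NumberField IsDedekindDomain

namespace Fermat.Agent.Cor.Bin

variable {K : Type*} [Field K] [NumberField K]

theorem two_le_absNorm (v : HeightOneSpectrum (𝓞 K)) : 2 ≤ Ideal.absNorm v.asIdeal := by
  have h1 : Ideal.absNorm v.asIdeal ≠ 0 := by
    rw [Ne, Ideal.absNorm_eq_zero_iff]; exact v.ne_bot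
  have h2 : Ideal.absNorm v.asIdeal ≠ 1 := by
    rw [Ne, Ideal.absNorm_eq_one_iff]; exact v.isPrime.ne_top
  omega

theorem absNorm_span_natCast' (p : ℕ) :
    Ideal.absNorm (Ideal.span {(p : 𝓞 K)}) = p ^ Module.finrank ℚ K := by
  rw [Ideal.absNorm_span_singleton]
  have h : Algebra.norm ℤ (p : 𝓞 K) = (p : ℤ) ^ Module.finrank ℚ K := by
    rw [← RingOfIntegers.rank K]
    have := Algebra.norm_algebraMap_of_basis (Module.Free.chooseBasis ℤ (𝓞 K)) (p : ℤ)
    rw [← Module.finrank_eq_card_basis (Module.Free.chooseBasis ℤ (𝓞 K))] at this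
    simpa using this
  rw [h, Int.natAbs_pow, Int.natAbs_natCast]

/-- the norms of the primes above `p` -/
theorem prod_absNorm_dvd {p : ℕ} (T : Finset (HeightOneSpectrum (𝓞 K)))
    (hT : ∀ v ∈ T, (p : 𝓞 K) ∈ v.asIdeal) :
    ∏ v ∈ T, Ideal.absNorm v.asIdeal ∣ p ^ Module.finrank ℚ K := by
  classical
  rw [← absNorm_span_natCast' (K := K) p, ← map_prod]
  refine map_dvd _ ?_
  have hinj : Set.InjOn (fun v : HeightOneSpectrum (𝓞 K) => v.asIdeal) T :=
    fun v _ w _ h => HeightOneSpectrum.ext h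
  have h1 : ∏ v ∈ T, v.asIdeal =
      ∏ P ∈ T.image (fun v : HeightOneSpectrum (𝓞 K) => v.asIdeal), P :=
    (Finset.prod_image (f := fun P : Ideal (𝓞 K) => P) hinj).symm
  rw [h1]
  refine Finset.prod_primes_dvd _ (fun P hP => ?_) (fun P hP => ?_)
  · obtain ⟨v, -, rfl⟩ := Finset.mem_image.mp hP
    exact v.prime
  · obtain ⟨v, hv, rfl⟩ := Finset.mem_image.mp hP
    exact Ideal.dvd_iff_le.mpr ((Ideal.span_singleton_le_iff_mem _).mpr (hT v hv))

theorem absNorm_eq_or {p : ℕ} (hp : p.Prime) (h2 : Module.finrank ℚ K = 2)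
    {v : HeightOneSpectrum (𝓞 K)} (hv : (p : 𝓞 K) ∈ v.asIdeal) :
    Ideal.absNorm v.asIdeal = p ∨ Ideal.absNorm v.asIdeal = p ^ 2 := by
  have h := prod_absNorm_dvd (K := K) (p := p) {v} (fun w hw => by
    rw [Finset.mem_singleton] at hw; rwa [hw])
  rw [Finset.prod_singleton, h2] at h
  obtain ⟨k, hk, hk'⟩ := (Nat.dvd_prime_pow hp).mp h
  have h3 := two_le_absNorm v
  interval_cases k
  · rw [pow_zero] at hk'; omega
  · left; simpa using hk'
  · right; exact hk'

/-- an ideal of prime norm is a prime ideal containing `p` -/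
noncomputable def placeOf {p : ℕ} (hp : p.Prime) (I : Ideal (𝓞 K)) (hI : Ideal.absNorm I = p) :
    HeightOneSpectrum (𝓞 K) where
  asIdeal := I
  isPrime := Ideal.isPrime_of_irreducible_absNorm (by rw [hI]; exact hp.prime.irreducible)
  ne_bot := fun h => by
    rw [h, Ideal.absNorm_bot] at hI
    exact hp.ne_zero hI.symm

theorem placeOf_asIdeal {p : ℕ} (hp : p.Prime) (I : Ideal (𝓞 K)) (hI : Ideal.absNorm I = p) :
    (placeOf hp I hI).asIdeal = I := rfl

/-- the number of ideals of norm `p` in terms of the primes above `p` -/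
theorem card_filter_eq {p : ℕ} (hp : p.Prime) (T : Finset (HeightOneSpectrum (𝓞 K)))
    (hT : ∀ v, v ∈ T ↔ (p : 𝓞 K) ∈ v.asIdeal) :
    Nat.card {I : Ideal (𝓞 K) // Ideal.absNorm I = p} =
      (T.filter (fun v => Ideal.absNorm v.asIdeal = p)).card := by
  classical
  have h1 : Nat.card (T.filter (fun v => Ideal.absNorm v.asIdeal = p)) =
      (T.filter (fun v => Ideal.absNorm v.asIdeal = p)).card := by
    rw [Nat.card_eq_fintype_card, Fintype.card_coe]
  rw [← h1]
  refine Nat.card_congr (Equiv.ofBijective (fun I =>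
    ⟨placeOf hp I.1 I.2, ?_⟩) ⟨?_, ?_⟩)
  · rw [Finset.mem_filter, hT, placeOf_asIdeal]
    refine ⟨?_, I.2⟩
    have h2 := Ideal.absNorm_mem I.1
    rwa [I.2] at h2
  · intro I J h
    have h2 := congrArg (fun x => x.1.asIdeal) h
    exact Subtype.ext h2
  · rintro ⟨v, hv⟩
    rw [Finset.mem_filter] at hv
    exact ⟨⟨v.asIdeal, hv.2⟩, Subtype.ext (HeightOneSpectrum.ext rfl)⟩

/-- there is a prime above `p` -/
theorem exists_place {p : ℕ} (hp : p.Prime) : ∃ v : HeightOneSpectrum (𝓞 K), (p : 𝓞 K) ∈ v.asIdeal := by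
  have h1 : Ideal.span {(p : 𝓞 K)} ≠ ⊤ := by
    intro h
    have h2 := absNorm_span_natCast' (K := K) p
    rw [h, Ideal.absNorm_top] at h2
    have h3 := Nat.one_lt_pow (Module.finrank_pos (R := ℚ) (M := K)).ne' hp.one_lt
    omega
  obtain ⟨P, hP, hP'⟩ := Ideal.exists_le_maximal _ h1
  have h2 : (p : 𝓞 K) ∈ P := hP' (Ideal.mem_span_singleton_self _)
  refine ⟨⟨P, hP.isPrime, fun h => ?_⟩, h2⟩
  rw [h, Ideal.mem_bot, Nat.cast_eq_zero] at h2
  exact hp.ne_zero h2

/-- **The Euler factor of a quadratic field at `p`** in terms of the number of ideals of norm `p`. -/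
theorem prod_local {p : ℕ} (hp : p.Prime) (h2 : Module.finrank ℚ K = 2)
    (T : Finset (HeightOneSpectrum (𝓞 K)))
    (hT : ∀ v, v ∈ T ↔ (p : 𝓞 K) ∈ v.asIdeal) (s : ℂ) :
    ∏ v ∈ T, (1 - (Ideal.absNorm v.asIdeal : ℂ) ^ (-s)) =
      (1 - (p : ℂ) ^ (-s)) *
        (1 - ((Nat.card {I : Ideal (𝓞 K) // Ideal.absNorm I = p} : ℂ) - 1) * (p : ℂ) ^ (-s)) := by
  classical
  rw [card_filter_eq hp T hT]
  have hpow : (((p ^ 2 : ℕ) : ℂ)) ^ (-s) = (p : ℂ) ^ (-s) * (p : ℂ) ^ (-s) := by
    rw [pow_two, Nat.cast_mul, Complex.natCast_mul_natCast_cpow]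
  have hd := prod_absNorm_dvd (K := K) T (fun v hv => (hT v).mp hv)
  rw [h2] at hd
  have hp1 := hp.one_lt
  have hpp : p ^ 2 < p ^ 3 := Nat.pow_lt_pow_right hp1 (by norm_num)
  have hge : p ^ T.card ≤ ∏ v ∈ T, Ideal.absNorm v.asIdeal := by
    rw [← Finset.prod_const]
    refine Finset.prod_le_prod' fun v hv => ?_
    rcases absNorm_eq_or hp h2 ((hT v).mp hv) with h | h
    · exact h.ge
    · rw [h]; exact Nat.le_self_pow two_ne_zero p
  have hle : ∏ v ∈ T, Ideal.absNorm v.asIdeal ≤ p ^ 2 := Nat.le_of_dvd (by positivity) hd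
  have hcard : T.card ≤ 2 := (Nat.pow_le_pow_iff_right hp1).mp (hge.trans hle)
  have hpos : T.card ≠ 0 := by
    intro h
    rw [Finset.card_eq_zero] at h
    obtain ⟨v, hv⟩ := exists_place (K := K) hp
    have := (hT v).mpr hv
    rw [h] at this
    exact absurd this (Finset.notMem_empty v)
  have hne : p ≠ p ^ 2 := by nlinarith
  have hcases : T.card = 1 ∨ T.card = 2 := by omega
  rcases hcases with h | h
  · obtain ⟨v, rfl⟩ := Finset.card_eq_one.mp h
    rw [Finset.prod_singleton, Finset.filter_singleton]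
    rcases absNorm_eq_or hp h2 ((hT v).mp (Finset.mem_singleton_self v)) with h3 | h3
    · rw [if_pos h3, h3, Finset.card_singleton]
      push_cast
      ring
    · rw [if_neg (by rw [h3]; exact hne.symm), h3, hpow, Finset.card_empty]
      push_cast
      ring
  · obtain ⟨v, w, hvw, rfl⟩ := Finset.card_eq_two.mp h
    have hv := absNorm_eq_or hp h2 ((hT v).mp (by simp))
    have hw := absNorm_eq_or hp h2 ((hT w).mp (by simp))
    rw [Finset.prod_pair hvw] at hle ⊢
    have hp0 : 0 < p := hp.pos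
    have hv' : Ideal.absNorm v.asIdeal = p := by
      rcases hv with hv | hv
      · exact hv
      · exfalso
        rcases hw with hw | hw <;> rw [hv, hw] at hle <;> nlinarith [pow_pos hp0 2]
    have hw' : Ideal.absNorm w.asIdeal = p := by
      rcases hw with hw | hw
      · exact hw
      · exfalso
        rw [hv', hw] at hle
        nlinarith [pow_pos hp0 2]
    have hf : ({v, w} : Finset (HeightOneSpectrum (𝓞 K))).filter
        (fun v => Ideal.absNorm v.asIdeal = p) = {v, w} := by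
      rw [Finset.filter_eq_self]
      intro u hu
      rw [Finset.mem_insert, Finset.mem_singleton] at hu
      rcases hu with rfl | rfl
      · exact hv'
      · exact hw'
    rw [hf, h, hv', hw']
    push_cast
    ring

end Fermat.Agent.Cor.Bin
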