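import Fermat.Agent.Corollaries.Bin.Kron
import Fermat.Agent.Corollaries.Ray.BForm
import Fermat.Agent.Corollaries.ZetaK.DegOne

/-!
# Forms and ideals of the maximal order of an imaginary quadratic field

`K = ℚ(θ)`, `θ² + e θ + m = 0`, `D = e² - 4m` fundamental. To a form `f = (a, b, c)` of discriminant
`D` belong `τ = (-b + √D) / 2 ∈ 𝓞 K` and the ideal `(a, τ) = ℤ a + ℤ τ` of norm `a`.

* `span_mul_idB`: properly equivalent forms have ideals of the same class;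
* `eqv_of_principal`: forms with ideals of the same class are properly equivalent (`D < 0`);
* `exists_form`: every ideal class is the class of a form.
-/

set_option autoImplicit false

open QuadraticAlgebra NumberField IsDedekindDomain
open scoped nonZeroDivisors

namespace Fermat.Agent.Cor.Bin

open Ray

variable {e m : ℤ} [hF : Fact (∀ r : ℚ, r ^ 2 ≠ -(((1 : ℤ) : ℚ) * m) + -(e : ℚ) * r)]

/-- the integer `(e - b) / 2` -/
def kB (e : ℤ) (f : BForm) : ℤ := (e - f.b) / 2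

omit hF in
theorem two_mul_kB {f : BForm} (hf : f.disc = e ^ 2 - 4 * m) : 2 * kB e f = e - f.b := by
  rw [kB]
  refine Int.mul_ediv_cancel' ?_
  rw [BForm.disc] at hf
  have h1 : (2 : ℤ) ∣ (e - f.b) ^ 2 :=
    ⟨e ^ 2 - e * f.b + 2 * (f.a * f.c - m), by linear_combination hf⟩
  exact Int.prime_two.dvd_of_dvd_pow h1

omit hF in
theorem kB_rel {f : BForm} (hf : f.disc = e ^ 2 - 4 * m) :
    m = e * kB e f - kB e f ^ 2 + f.a * f.c := by
  have h1 := two_mul_kB hf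
  have hb : f.b = e - 2 * kB e f := by linarith
  rw [BForm.disc, hb] at hf
  linarith

/-- `τ = (-b + √D) / 2` -/
noncomputable def tau (e m : ℤ) [Fact (∀ r : ℚ, r ^ 2 ≠ -(((1 : ℤ) : ℚ) * m) + -(e : ℚ) * r)]
    (f : BForm) : 𝓞 (QF 1 e m) := ((kB e f : ℤ) : 𝓞 (QF 1 e m)) + thetaQ 1 e m

theorem tau_sq {f : BForm} (hf : f.disc = e ^ 2 - 4 * m) :
    tau e m f * tau e m f = -((f.a : 𝓞 (QF 1 e m)) * f.c) - (f.b : 𝓞 (QF 1 e m)) * tau e m f := by
  have h1 : (f.b : 𝓞 (QF 1 e m)) = (e : 𝓞 (QF 1 e m)) - 2 * ((kB e f : ℤ) : 𝓞 (QF 1 e m)) := by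
    have := congrArg (Int.cast : ℤ → 𝓞 (QF 1 e m)) (two_mul_kB hf)
    push_cast at this
    linear_combination this
  have h2 : (m : 𝓞 (QF 1 e m)) = e * (kB e f : ℤ) - (kB e f : ℤ) ^ 2 + f.a * f.c := by
    have := congrArg (Int.cast : ℤ → 𝓞 (QF 1 e m)) (kB_rel hf)
    push_cast at this
    exact this
  have h3 := theta_sq' (b := e) (c := m)
  rw [tau, h1]
  linear_combination h3 - h2

theorem exists_tau (hD : IsFundDiscr (e ^ 2 - 4 * m)) (f : BForm) (z : 𝓞 (QF 1 e m)) :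
    ∃ u v : ℤ, z = (u : 𝓞 (QF 1 e m)) + v * tau e m f := by
  obtain ⟨x, y, rfl⟩ := exists_coord hD z
  refine ⟨x - y * kB e f, y, ?_⟩
  rw [tau]
  push_cast
  ring

theorem tau_inj (f : BForm) {u v u' v' : ℤ}
    (h : (u : 𝓞 (QF 1 e m)) + v * tau e m f = u' + v' * tau e m f) : u = u' ∧ v = v' := by
  have h1 : ((u + v * kB e f : ℤ) : 𝓞 (QF 1 e m)) + v * thetaQ 1 e m =
      ((u' + v' * kB e f : ℤ) : 𝓞 (QF 1 e m)) + v' * thetaQ 1 e m := by
    rw [tau] at h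
    push_cast
    linear_combination h
  obtain ⟨h2, h3⟩ := coord_inj h1
  subst h3
  exact ⟨by linarith, rfl⟩

theorem norm_tau {f : BForm} (hf : f.disc = e ^ 2 - 4 * m) (u v : ℤ) :
    Algebra.norm ℤ ((u : 𝓞 (QF 1 e m)) + v * tau e m f) =
      u ^ 2 - f.b * u * v + f.a * f.c * v ^ 2 := by
  have h1 : (u : 𝓞 (QF 1 e m)) + v * tau e m f =
      ((u + v * kB e f : ℤ) : 𝓞 (QF 1 e m)) + v * thetaQ 1 e m := by
    rw [tau]
    push_cast
    ring
  have h2 := two_mul_kB hf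
  have hb : f.b = e - 2 * kB e f := by linarith
  have h3 := kB_rel hf
  rw [h1, norm_coord, hb]
  linear_combination v ^ 2 * h3

/-- `N (x a - y τ) = a f(x, y)` -/
theorem norm_val {f : BForm} (hf : f.disc = e ^ 2 - 4 * m) (x y : ℤ) :
    Algebra.norm ℤ (((x * f.a : ℤ) : 𝓞 (QF 1 e m)) + ((-y : ℤ) : 𝓞 (QF 1 e m)) * tau e m f) =
      f.a * f.val x y := by
  rw [norm_tau hf, BForm.val]
  ring

/-- the ideal `(a, τ)` -/
noncomputable def idB (e m : ℤ) [Fact (∀ r : ℚ, r ^ 2 ≠ -(((1 : ℤ) : ℚ) * m) + -(e : ℚ) * r)]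
    (f : BForm) : Ideal (𝓞 (QF 1 e m)) := Ideal.span {(f.a : 𝓞 (QF 1 e m)), tau e m f}

theorem a_mem_idB (f : BForm) : (f.a : 𝓞 (QF 1 e m)) ∈ idB e m f :=
  Ideal.subset_span (Set.mem_insert _ _)

theorem tau_mem_idB (f : BForm) : tau e m f ∈ idB e m f :=
  Ideal.subset_span (Set.mem_insert_of_mem _ rfl)

theorem mem_idB (hD : IsFundDiscr (e ^ 2 - 4 * m)) {f : BForm} (hf : f.disc = e ^ 2 - 4 * m)
    {z : 𝓞 (QF 1 e m)} : z ∈ idB e m f ↔
      ∃ u v : ℤ, z = ((u * f.a : ℤ) : 𝓞 (QF 1 e m)) + v * tau e m f := by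
  constructor
  · intro h
    obtain ⟨w, z, rfl⟩ := Ideal.mem_span_pair.mp h
    obtain ⟨u0, u1, rfl⟩ := exists_tau hD f w
    obtain ⟨v0, v1, rfl⟩ := exists_tau hD f z
    refine ⟨u0 - f.c * v1, u1 * f.a + v0 - f.b * v1, ?_⟩
    push_cast
    linear_combination (v1 : 𝓞 (QF 1 e m)) * tau_sq hf
  · rintro ⟨u, v, rfl⟩
    rw [Int.cast_mul]
    exact (idB e m f).add_mem ((idB e m f).mul_mem_left _ (a_mem_idB f))
      ((idB e m f).mul_mem_left _ (tau_mem_idB f))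

theorem absNorm_idB (hD : IsFundDiscr (e ^ 2 - 4 * m)) {f : BForm} (hf : f.disc = e ^ 2 - 4 * m) :
    Ideal.absNorm (idB e m f) = f.a.natAbs := by
  let φ : ℤ →+* 𝓞 (QF 1 e m) ⧸ idB e m f :=
    (Ideal.Quotient.mk (idB e m f)).comp (Int.castRingHom _)
  have hsurj : Function.Surjective φ := by
    intro q
    obtain ⟨z, rfl⟩ := Ideal.Quotient.mk_surjective q
    obtain ⟨x, y, rfl⟩ := exists_tau hD f z
    refine ⟨x, ?_⟩
    change Ideal.Quotient.mk (idB e m f) ((x : ℤ) : 𝓞 (QF 1 e m)) = _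
    rw [Ideal.Quotient.eq]
    have h1 : ((x : ℤ) : 𝓞 (QF 1 e m)) - (x + y * tau e m f) =
        -((y : ℤ) : 𝓞 (QF 1 e m)) * tau e m f := by ring
    rw [h1]
    exact Ideal.mul_mem_left _ _ (tau_mem_idB f)
  have hker : RingHom.ker φ = Ideal.span {f.a} := by
    ext k
    rw [RingHom.mem_ker, Ideal.mem_span_singleton]
    have h0 : φ k = 0 ↔ ((k : ℤ) : 𝓞 (QF 1 e m)) ∈ idB e m f := Ideal.Quotient.eq_zero_iff_mem
    rw [h0, mem_idB hD hf]
    constructor
    · rintro ⟨u, v, h⟩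
      have h1 : (k : 𝓞 (QF 1 e m)) + ((0 : ℤ) : 𝓞 (QF 1 e m)) * tau e m f =
          ((u * f.a : ℤ) : 𝓞 (QF 1 e m)) + v * tau e m f := by
        rw [← h, Int.cast_zero, zero_mul, add_zero]
      exact ⟨u, by rw [(tau_inj f h1).1, mul_comm]⟩
    · rintro ⟨w, rfl⟩
      exact ⟨w, 0, by push_cast; ring⟩
  have E := (Ideal.quotEquivOfEq hker).symm.trans (RingHom.quotientKerEquivOfSurjective hsurj)
  have E2 := Int.quotientSpanEquivZMod f.a
  rw [Ideal.absNorm_apply, Submodule.cardQuot_apply, ← Nat.card_congr E.toEquiv,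
    Nat.card_congr E2.toEquiv, Nat.card_zmod]

theorem idB_ne_bot (f : BForm) (ha : f.a ≠ 0) : idB e m f ≠ ⊥ := by
  intro h
  have h1 := a_mem_idB (e := e) (m := m) f
  rw [h, Ideal.mem_bot, Int.cast_eq_zero] at h1
  exact ha h1

/-! ### Equivalent forms -/

/-- **equivalent forms have ideals of the same class**: `(δ) (a_f, τ_f) = (a_f) (a_g, τ_g)` for
`g = f ∘ (p q; r s)`, `δ = p a + r b + r τ_f`. -/
theorem span_mul_idB {f : BForm} (hf : f.disc = e ^ 2 - 4 * m) {p q r s : ℤ}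
    (hdet : p * s - q * r = 1) :
    Ideal.span {((p * f.a + r * f.b : ℤ) : 𝓞 (QF 1 e m)) + r * tau e m f} * idB e m f =
      Ideal.span {(f.a : 𝓞 (QF 1 e m))} * idB e m (f.subst p q r s) := by
  set g := f.subst p q r s with hg
  have hgd : g.disc = e ^ 2 - 4 * m := by
    rw [hg, BForm.disc_subst, hdet, hf]; ring
  set δ : 𝓞 (QF 1 e m) := ((p * f.a + r * f.b : ℤ) : 𝓞 (QF 1 e m)) + r * tau e m f with hδ
  -- `τ_g = τ_f - (p q a + q r b + r s c)`
  have htg : tau e m g = tau e m f -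
      ((p * q * f.a + q * r * f.b + r * s * f.c : ℤ) : 𝓞 (QF 1 e m)) := by
    have h1 := two_mul_kB hf
    have h2 := two_mul_kB hgd
    have h3 : g.b = 2 * f.a * p * q + f.b * (p * s + q * r) + 2 * f.c * r * s := rfl
    have h4 : kB e g = kB e f - (p * q * f.a + q * r * f.b + r * s * f.c) := by
      rw [h3] at h2
      linarith [congrArg (fun z => f.b * z) hdet]
    rw [tau, tau, h4]
    push_cast
    ring
  have hga : g.a = f.a * p ^ 2 + f.b * p * r + f.c * r ^ 2 := rfl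
  have hts := tau_sq hf (hF := hF)
  have hdet' : (p : 𝓞 (QF 1 e m)) * s - q * r = 1 := by exact_mod_cast congrArg (Int.cast : ℤ → 𝓞 (QF 1 e m)) hdet
  have hδa : δ * f.a = f.a * (s * g.a + r * tau e m g) := by
    rw [htg, hga, hδ]
    push_cast
    linear_combination (-(f.a : 𝓞 (QF 1 e m)) * (f.a * p + f.b * r)) * hdet'
  have hδt : δ * tau e m f = f.a * (q * g.a + p * tau e m g) := by
    rw [htg, hga, hδ]
    push_cast
    linear_combination (r : 𝓞 (QF 1 e m)) * hts + ((f.a : 𝓞 (QF 1 e m)) * (f.c * r)) * hdet'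
  rw [idB, idB, Ideal.span_mul_span', Ideal.span_mul_span', Set.singleton_mul, Set.singleton_mul,
    Set.image_pair, Set.image_pair, hδa, hδt]
  apply le_antisymm
  · rw [Ideal.span_le, Set.insert_subset_iff, Set.singleton_subset_iff]
    constructor
    · exact Ideal.mem_span_pair.mpr ⟨s, r, by ring⟩
    · exact Ideal.mem_span_pair.mpr ⟨q, p, by ring⟩
  · rw [Ideal.span_le, Set.insert_subset_iff, Set.singleton_subset_iff]
    constructor
    · exact Ideal.mem_span_pair.mpr ⟨p, -r, by linear_combination (f.a * g.a : 𝓞 (QF 1 e m)) * hdet'⟩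
    · exact Ideal.mem_span_pair.mpr ⟨-q, s, by
        linear_combination (f.a * tau e m g : 𝓞 (QF 1 e m)) * hdet'⟩

/-! ### Forms with ideals of the same class -/

/-- the alternating form `re z im w - im z re w` -/
def cross (z w : QF 1 e m) : ℚ := z.re * w.im - z.im * w.re

omit hF in
theorem cross_mul (x z w : QF 1 e m) :
    cross (x * z) (x * w) = QuadraticAlgebra.norm x * cross z w := by
  simp only [cross, QuadraticAlgebra.re_mul, QuadraticAlgebra.im_mul, norm_def]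
  ring

theorem coe_norm (z : 𝓞 (QF 1 e m)) :
    ((Algebra.norm ℤ z : ℤ) : ℚ) = QuadraticAlgebra.norm (z : QF 1 e m) := by
  rw [Algebra.coe_norm_int, ← QuadraticAlgebra.det_toLinearMap_eq_norm, Algebra.norm_apply]
  rfl

theorem cross_tau (f : BForm) (u v u' v' : ℤ) :
    cross ((((u * f.a : ℤ) : 𝓞 (QF 1 e m)) + v * tau e m f : 𝓞 (QF 1 e m)) : QF 1 e m)
      ((((u' * f.a : ℤ) : 𝓞 (QF 1 e m)) + v' * tau e m f : 𝓞 (QF 1 e m)) : QF 1 e m) =
      ((u * v' - v * u') * f.a : ℤ) := by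
  have h : ∀ u v : ℤ, ((((u * f.a : ℤ) : 𝓞 (QF 1 e m)) + v * tau e m f : 𝓞 (QF 1 e m)) :
      QF 1 e m) = ⟨((u * f.a + v * kB e f : ℤ) : ℚ), (v : ℚ)⟩ := by
    intro u v
    rw [← coe_comb]
    congr 1
    rw [tau]
    push_cast
    ring
  rw [h, h, cross]
  push_cast
  ring

/-- **Forms with ideals of the same class are properly equivalent** (`D < 0`). -/
theorem eqv_of_principal (hD : IsFundDiscr (e ^ 2 - 4 * m)) (hneg : e ^ 2 - 4 * m < 0)
    {f g : BForm} (hf : f.disc = e ^ 2 - 4 * m) (hg : g.disc = e ^ 2 - 4 * m) (hfa : 0 < f.a)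
    (hga : 0 < g.a) {J : Ideal (𝓞 (QF 1 e m))} (hJ : J ≠ ⊥) {α β : 𝓞 (QF 1 e m)}
    (hα : J * idB e m f = Ideal.span {α}) (hβ : J * idB e m g = Ideal.span {β}) : g.Eqv f := by
  -- `β 𝔞_f = α 𝔞_g`
  have h1 : Ideal.span {β} * idB e m f = Ideal.span {α} * idB e m g := by
    apply mul_left_cancel₀ (a := J) (by rwa [Ne, Ideal.zero_eq_bot])
    calc J * (Ideal.span {β} * idB e m f) = (J * idB e m f) * Ideal.span {β} := by ring
      _ = (J * idB e m g) * Ideal.span {α} := by rw [hα, hβ]; exact mul_comm _ _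
      _ = J * (Ideal.span {α} * idB e m g) := by ring
  have key : ∀ z ∈ idB e m f, ∃ w ∈ idB e m g, α * w = β * z := by
    intro z hz
    have h2 : β * z ∈ Ideal.span {β} * idB e m f :=
      Ideal.mul_mem_mul (Ideal.mem_span_singleton_self β) hz
    rw [h1] at h2
    exact Ideal.mem_span_singleton_mul.mp h2
  obtain ⟨A, hA, hAe⟩ := key _ (a_mem_idB f)
  obtain ⟨B, hB, hBe⟩ := key _ (tau_mem_idB f)
  obtain ⟨u1, v1, rfl⟩ := (mem_idB hD hg).mp hA
  obtain ⟨u2, v2, rfl⟩ := (mem_idB hD hg).mp hB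
  -- the norms
  have hα0 : α ≠ 0 := by
    rintro rfl
    have h2 : J * idB e m f = ⊥ := by rw [hα]; exact Ideal.span_singleton_eq_bot.mpr rfl
    rcases Ideal.mul_eq_bot.mp h2 with h3 | h3
    · exact hJ h3
    · exact idB_ne_bot f hfa.ne' h3
  have hNα : 0 < Algebra.norm ℤ α := lt_of_le_of_ne (norm_nonneg' hD hneg α)
    (Ne.symm (Algebra.norm_ne_zero_iff.mpr hα0))
  have hN : Algebra.norm ℤ β * f.a = Algebra.norm ℤ α * g.a := by
    have h2 := congrArg Ideal.absNorm h1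
    rw [map_mul, map_mul, Ideal.absNorm_span_singleton, Ideal.absNorm_span_singleton,
      absNorm_idB hD hf, absNorm_idB hD hg] at h2
    have h3 := norm_nonneg' hD hneg β
    have h4 : ((Algebra.norm ℤ β).natAbs : ℤ) * (f.a.natAbs : ℤ) =
        ((Algebra.norm ℤ α).natAbs : ℤ) * (g.a.natAbs : ℤ) := by exact_mod_cast h2
    rwa [Int.natAbs_of_nonneg h3, Int.natAbs_of_nonneg hNα.le, Int.natAbs_of_nonneg hfa.le,
      Int.natAbs_of_nonneg hga.le] at h4
  -- the determinant is `1`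
  have hdet : u1 * v2 - v1 * u2 = 1 := by
    have h2 := cross_tau (e := e) (m := m) f 1 0 0 1
    have h3 := cross_tau (e := e) (m := m) g u1 v1 u2 v2
    have h4 := cross_mul (β : QF 1 e m) ((((1 * f.a : ℤ) : 𝓞 (QF 1 e m)) +
      ((0 : ℤ) : 𝓞 (QF 1 e m)) * tau e m f : 𝓞 (QF 1 e m)) : QF 1 e m)
      ((((0 * f.a : ℤ) : 𝓞 (QF 1 e m)) +
      ((1 : ℤ) : 𝓞 (QF 1 e m)) * tau e m f : 𝓞 (QF 1 e m)) : QF 1 e m)
    have h5 := cross_mul (α : QF 1 e m) ((((u1 * g.a : ℤ) : 𝓞 (QF 1 e m)) +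
      ((v1 : ℤ) : 𝓞 (QF 1 e m)) * tau e m g : 𝓞 (QF 1 e m)) : QF 1 e m)
      ((((u2 * g.a : ℤ) : 𝓞 (QF 1 e m)) +
      ((v2 : ℤ) : 𝓞 (QF 1 e m)) * tau e m g : 𝓞 (QF 1 e m)) : QF 1 e m)
    rw [h2, ← coe_norm] at h4
    rw [h3, ← coe_norm] at h5
    have e1 : (((1 * f.a : ℤ) : 𝓞 (QF 1 e m)) + ((0 : ℤ) : 𝓞 (QF 1 e m)) * tau e m f) =
        (f.a : 𝓞 (QF 1 e m)) := by push_cast; ring
    have e2 : (((0 * f.a : ℤ) : 𝓞 (QF 1 e m)) + ((1 : ℤ) : 𝓞 (QF 1 e m)) * tau e m f) =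
        tau e m f := by push_cast; ring
    rw [e1, e2] at h4
    have e3 : (β : QF 1 e m) * ((f.a : 𝓞 (QF 1 e m)) : QF 1 e m) = (α : QF 1 e m) *
        ((((u1 * g.a : ℤ) : 𝓞 (QF 1 e m)) +
          ((v1 : ℤ) : 𝓞 (QF 1 e m)) * tau e m g : 𝓞 (QF 1 e m)) : QF 1 e m) := by
      have := congrArg (fun z : 𝓞 (QF 1 e m) => (z : QF 1 e m)) hAe
      simpa only [map_mul] using this.symm
    have e4 : (β : QF 1 e m) * ((tau e m f : 𝓞 (QF 1 e m)) : QF 1 e m) = (α : QF 1 e m) *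
        ((((u2 * g.a : ℤ) : 𝓞 (QF 1 e m)) +
          ((v2 : ℤ) : 𝓞 (QF 1 e m)) * tau e m g : 𝓞 (QF 1 e m)) : QF 1 e m) := by
      have := congrArg (fun z : 𝓞 (QF 1 e m) => (z : QF 1 e m)) hBe
      simpa only [map_mul] using this.symm
    rw [e3, e4, h5] at h4
    have h6 : Algebra.norm ℤ α * ((u1 * v2 - v1 * u2) * g.a) =
        Algebra.norm ℤ β * ((1 * 1 - 0 * 0) * f.a) := by exact_mod_cast h4
    have h7 : (Algebra.norm ℤ α * g.a) * (u1 * v2 - v1 * u2) = (Algebra.norm ℤ α * g.a) * 1 := by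
      rw [mul_one, ← hN]
      linear_combination h6 + (u1 * v2 - v1 * u2) * hN
    exact mul_left_cancel₀ (mul_pos hNα hga).ne' h7
  -- the values
  have hval : ∀ x y : ℤ, f.val x y = g.val (u1 * x + -u2 * y) (-v1 * x + v2 * y) := by
    intro x y
    have h2 := norm_val hf x y
    have h3 := norm_val hg (u1 * x + -u2 * y) (-v1 * x + v2 * y)
    have h4 : β * (((x * f.a : ℤ) : 𝓞 (QF 1 e m)) + ((-y : ℤ) : 𝓞 (QF 1 e m)) * tau e m f) =
        α * ((((u1 * x + -u2 * y) * g.a : ℤ) : 𝓞 (QF 1 e m)) +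
          ((-(-v1 * x + v2 * y) : ℤ) : 𝓞 (QF 1 e m)) * tau e m g) := by
      push_cast at hAe hBe ⊢
      linear_combination -(x : 𝓞 (QF 1 e m)) * hAe + (y : 𝓞 (QF 1 e m)) * hBe
    have h5 := congrArg (Algebra.norm ℤ) h4
    rw [map_mul, map_mul, h2, h3] at h5
    have h6 : (Algebra.norm ℤ α * g.a) * f.val x y =
        (Algebra.norm ℤ α * g.a) * g.val (u1 * x + -u2 * y) (-v1 * x + v2 * y) := by
      rw [← hN]
      linear_combination h5 - g.val (u1 * x + -u2 * y) (-v1 * x + v2 * y) * hN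
    exact mul_left_cancel₀ (mul_pos hNα hga).ne' h6
  refine ⟨u1, -u2, -v1, v2, by linear_combination hdet, ?_⟩
  have w1 := hval 1 0
  have w2 := hval 0 1
  have w3 := hval 1 1
  have c1 := BForm.val_subst g u1 (-u2) (-v1) v2
  have k1 := (c1 1 0).trans w1.symm
  have k2 := (c1 0 1).trans w2.symm
  have k3 := (c1 1 1).trans w3.symm
  set G := g.subst u1 (-u2) (-v1) v2 with hG
  have l1 : G.a = f.a := by simpa [BForm.val] using k1
  have l2 : G.c = f.c := by simpa [BForm.val] using k2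
  have l3 : G.b = f.b := by
    have : G.a + G.b + G.c = f.a + f.b + f.c := by simpa [BForm.val] using k3
    linarith
  exact BForm.ext l1 l3 l2

/-! ### Every class contains the ideal of a form -/

omit hF in
/-- forms of fundamental discriminant are primitive -/
theorem prim_of_fund {D : ℤ} (hD : IsFundDiscr D) {f : BForm} (hf : f.disc = D) : f.Prim := by
  rintro q hq ⟨⟨a', ha⟩, ⟨b', hb⟩, ⟨c', hc⟩⟩
  have h1 : D = (q : ℤ) ^ 2 * (b' ^ 2 - 4 * a' * c') := by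
    rw [← hf, BForm.disc, ha, hb, hc]
    ring
  have h2 : (b' ^ 2 - 4 * a' * c') % 4 = 0 ∨ (b' ^ 2 - 4 * a' * c') % 4 = 1 := by
    rcases Int.even_or_odd' b' with ⟨t, rfl | rfl⟩
    · left
      have : (2 * t) ^ 2 - 4 * a' * c' = 4 * (t ^ 2 - a' * c') := by ring
      omega
    · right
      have : (2 * t + 1) ^ 2 - 4 * a' * c' = 4 * (t ^ 2 + t - a' * c') + 1 := by ring
      omega
  have h3 := hD.key h1 h2
  have h4 := Int.isUnit_iff.mp h3
  have h5 := hq.one_lt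
  omega

/-- an ideal of prime norm is the ideal of a form -/
theorem exists_form_of_prime_norm (hD : IsFundDiscr (e ^ 2 - 4 * m)) {p : ℕ} (hp : p.Prime)
    {P : Ideal (𝓞 (QF 1 e m))} (hP : Ideal.absNorm P = p) :
    ∃ f : BForm, f.disc = e ^ 2 - 4 * m ∧ f.a = p ∧ idB e m f = P := by
  have hp' : Fact p.Prime := ⟨hp⟩
  obtain ⟨φ, hφ⟩ := exists_hom_of_absNorm hP
  obtain ⟨t, ht⟩ := ZMod.intCast_surjective (φ (thetaQ 1 e m))
  have h1 := hom_root φ
  rw [← ht] at h1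
  have h2 : ((t * t + e * t + m : ℤ) : ZMod p) = 0 := by
    push_cast
    exact h1
  obtain ⟨c, hc⟩ := (ZMod.intCast_zmod_eq_zero_iff_dvd _ p).mp h2
  let f : BForm := ⟨p, e + 2 * t, c⟩
  have hf : f.disc = e ^ 2 - 4 * m := by
    change (e + 2 * t) ^ 2 - 4 * (p : ℤ) * c = _
    linear_combination (4 : ℤ) * hc
  refine ⟨f, hf, rfl, ?_⟩
  have hk : kB e f = -t := by
    have := two_mul_kB hf
    change 2 * kB e f = e - (e + 2 * t) at this
    linarith
  have hle : idB e m f ≤ P := by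
    rw [idB, Ideal.span_le, Set.insert_subset_iff, Set.singleton_subset_iff]
    constructor
    · have := Ideal.absNorm_mem P
      rw [hP] at this
      change (((p : ℕ) : ℤ) : 𝓞 (QF 1 e m)) ∈ P
      rwa [Int.cast_natCast]
    · change tau e m f ∈ P
      rw [← hφ, RingHom.mem_ker, tau, hk, map_add, map_intCast, ← ht]
      push_cast
      ring
  obtain ⟨L, hL⟩ := Ideal.dvd_iff_le.mpr hle
  have hN := congrArg Ideal.absNorm hL
  rw [absNorm_idB hD hf, map_mul, hP] at hN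
  have h3 : Ideal.absNorm L = 1 := by
    have h4 : p * Ideal.absNorm L = p * 1 := by
      rw [← hN, mul_one]
      rfl
    exact Nat.eq_of_mul_eq_mul_left hp.pos h4
  rw [Ideal.absNorm_eq_one_iff] at h3
  rw [hL, h3, Ideal.mul_top]

/-- **Every ideal class is the class of a form**: for every ideal `J ≠ 0` there is a form `f` with
`J (a, τ_f)` principal. -/
theorem exists_form (hD : IsFundDiscr (e ^ 2 - 4 * m)) {J : Ideal (𝓞 (QF 1 e m))} (hJ : J ≠ ⊥) :
    ∃ f : BForm, f.disc = e ^ 2 - 4 * m ∧ 0 < f.a ∧ (J * idB e m f).IsPrincipal := by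
  let J' : (Ideal (𝓞 (QF 1 e m)))⁰ := ⟨J, mem_nonZeroDivisors_of_ne_zero hJ⟩
  obtain ⟨P, hP, hPp, -⟩ := exists_deg_one_in_class (K := QF 1 e m) (ClassGroup.mk0 J')⁻¹ 0
  obtain ⟨f, hf, hfa, hfP⟩ := exists_form_of_prime_norm (e := e) (m := m) hD hPp rfl
  refine ⟨f, hf, by rw [hfa]; exact_mod_cast hPp.pos, ?_⟩
  have h1 : ClassGroup.mk0 (J' * P.1) = 1 := by
    rw [map_mul, hP, mul_inv_cancel]
  rw [ClassGroup.mk0_eq_one_iff] at h1
  rw [hfP]
  exact h1

end Fermat.Agent.Cor.Bin
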