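import Fermat.Agent.Corollaries.Bin.Main
import Fermat.Agent.Corollaries.Siegel.DiscThree

/-!
# The Kronecker symbol and the zeta function of a quadratic field

* `kron D : ℕ →*₀ ℤ`: the Kronecker symbol `(D / n)`: completely multiplicative, the Legendre symbol
  `(D / p)` at the odd primes `p`, and `χ₈(D)` at `2`;
* `card_absNorm_eq_sum_kron`: a quadratic field `K` has `∑_{d ∣ n} (discr K / d)` ideals of norm
  `n ≥ 1`;
* `dedekindZeta_eq_mul_kron`: `ζ_K(s) = ζ(s) ∑ (discr K / n) n ^ (-s)`;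
* `isFundDiscr_discr`: the discriminant of a quadratic field is fundamental.
-/

set_option autoImplicit false

open QuadraticAlgebra NumberField Module
open scoped NumberTheorySymbols

namespace Fermat.Agent.Cor.Bin

/-! ### The Kronecker symbol -/

/-- the Kronecker symbol `(D / n)`, as a function of `n : ℕ` -/
def kron (D : ℤ) : ℕ →*₀ ℤ where
  toFun n := if n = 0 then 0 else ZMod.χ₈ D ^ n.factorization 2 * J(D | ordCompl[2] n)
  map_zero' := if_pos rfl
  map_one' := by simp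
  map_mul' m n := by
    rcases eq_or_ne m 0 with rfl | hm
    · simp
    rcases eq_or_ne n 0 with rfl | hn
    · simp
    rw [if_neg (mul_ne_zero hm hn), if_neg hm, if_neg hn, Nat.ordCompl_mul,
      Nat.factorization_mul hm hn, jacobiSym.mul_right' D (Nat.ordCompl_pos 2 hm).ne'
        (Nat.ordCompl_pos 2 hn).ne', Finsupp.add_apply, pow_add]
    ring

theorem kron_two (D : ℤ) : kron D 2 = ZMod.χ₈ D := by
  change (if (2 : ℕ) = 0 then 0 else ZMod.χ₈ D ^ (2 : ℕ).factorization 2 * J(D | ordCompl[2] 2)) = _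
  rw [if_neg two_ne_zero, Nat.prime_two.factorization_self]
  norm_num

theorem kron_of_odd (D : ℤ) {n : ℕ} (hn : Odd n) : kron D n = J(D | n) := by
  change (if n = 0 then 0 else ZMod.χ₈ D ^ n.factorization 2 * J(D | ordCompl[2] n)) = _
  have h2 : ¬ 2 ∣ n := fun h => by
    obtain ⟨k, hk⟩ := hn
    omega
  rw [if_neg (by rintro rfl; exact h2 (dvd_zero 2)), Nat.factorization_eq_zero_of_not_dvd h2,
    pow_zero, one_mul, pow_zero, Nat.div_one]

theorem kron_prime (D : ℤ) {p : ℕ} [hp : Fact p.Prime] (h2 : p ≠ 2) :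
    kron D p = legendreSym p D := by
  rw [kron_of_odd D (hp.out.odd_of_ne_two h2), jacobiSym.legendreSym.to_jacobiSym]

theorem nroots_eq_kron (b c : ℤ) {p : ℕ} (hp : p.Prime) :
    (nroots b c p : ℤ) = 1 + kron (b ^ 2 - 4 * c) p := by
  rcases eq_or_ne p 2 with rfl | h2
  · rw [kron_two]
    have key : ∀ u v : ZMod 8, 1 + ZMod.χ₈ (u ^ 2 - 4 * v) =
        if (ZMod.castHom (show 2 ∣ 8 by norm_num) (ZMod 2) u) = 0 then 1 else
          if (ZMod.castHom (show 2 ∣ 8 by norm_num) (ZMod 2) v) = 0 then 2 else 0 := by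
      decide
    have h3 : ∀ u v : ZMod 2, (Nat.card {t : ZMod 2 // t * t + u * t + v = 0} : ℤ) =
        if u = 0 then 1 else if v = 0 then 2 else 0 := by
      intro u v
      rw [Nat.card_eq_fintype_card]
      revert u v
      decide
    have h4 := key (b : ZMod 8) (c : ZMod 8)
    rw [map_intCast, map_intCast] at h4
    rw [nroots, h3]
    push_cast at h4 ⊢
    exact h4.symm
  · have : Fact p.Prime := ⟨hp⟩
    rw [nroots_of_ne_two b c h2, kron_prime _ h2]

/-! ### Quadratic fields -/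

section Field

variable {K : Type*} [Field K] [NumberField K]

/-- a fundamental discriminant is `b² - 4 c` -/
theorem _root_.Fermat.Agent.Cor.IsFundDiscr.exists_eq {D : ℤ} (hD : IsFundDiscr D) :
    ∃ b c : ℤ, D = b ^ 2 - 4 * c := by
  rcases hD with ⟨h1, -⟩ | ⟨m, rfl, -⟩
  · exact ⟨1, (1 - D) / 4, by omega⟩
  · exact ⟨0, -m, by ring⟩

theorem exists_ringEquiv {b c : ℤ} [Fact (∀ r : ℚ, r ^ 2 ≠ -(((1 : ℤ) : ℚ) * c) + -(b : ℚ) * r)]
    (h2 : finrank ℚ K = 2) {δ : K} (hδ : δ ^ 2 = ((b ^ 2 - 4 * c : ℤ) : K)) :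
    Nonempty (QF 1 b c ≃+* K) := by
  let u : K := (δ - b) / 2
  have hu : u * u = (-(((1 : ℤ) : ℚ) * c)) • (1 : K) + (-(b : ℚ)) • u := by
    rw [Algebra.smul_def, Algebra.smul_def, mul_one]
    push_cast at hδ
    simp only [map_neg, map_mul, map_intCast]
    have h3 : (2 : K) ≠ 0 := two_ne_zero
    simp only [u]
    field_simp
    push_cast
    linear_combination hδ
  let φ : QF 1 b c →ₐ[ℚ] K := QuadraticAlgebra.lift ⟨u, hu⟩
  have hinj : Function.Injective φ := φ.toRingHom.injective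
  have hsurj : Function.Surjective φ :=
    (LinearMap.injective_iff_surjective_of_finrank_eq_finrank (f := φ.toLinearMap)
      (finrank_QF'.trans h2.symm)).mp hinj
  exact ⟨RingEquiv.ofBijective φ ⟨hinj, hsurj⟩⟩

theorem card_absNorm_congr {L : Type*} [Field L] [NumberField L] (e : K ≃+* L) (n : ℕ) :
    Nat.card {I : Ideal (𝓞 K) // Ideal.absNorm I = n} =
      Nat.card {I : Ideal (𝓞 L) // Ideal.absNorm I = n} := by
  let f : 𝓞 K ≃+* 𝓞 L := RingOfIntegers.mapRingEquiv e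
  refine Nat.card_congr (Equiv.subtypeEquiv f.idealComapOrderIso.symm.toEquiv fun I => ?_)
  change Ideal.absNorm I = n ↔ Ideal.absNorm (I.map f) = n
  have h : Ideal.absNorm I = Ideal.absNorm (I.map f) := by
    rw [Ideal.absNorm_apply, Ideal.absNorm_apply, Submodule.cardQuot_apply,
      Submodule.cardQuot_apply]
    exact Nat.card_congr (Ideal.quotientEquiv I (I.map f) f rfl).toEquiv
  rw [h]

/-- every quadratic field is `ℚ(√D)`, `D` a fundamental discriminant -/
theorem exists_sq_eq_fundDiscr (h2 : finrank ℚ K = 2) :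
    ∃ (D : ℤ) (δ : K), IsFundDiscr D ∧ δ ^ 2 = (D : K) := by
  obtain ⟨r, hr, hr'⟩ := Siegel.exists_sqrt_discr (K := K) h2
  obtain ⟨a, f, haf, ha⟩ := Nat.sq_mul_squarefree (discr K).natAbs
  have hd0 : discr K ≠ 0 := discr_ne_zero K
  have hf0 : f ≠ 0 := by
    rintro rfl
    rw [zero_pow two_ne_zero, zero_mul] at haf
    exact hd0 (Int.natAbs_eq_zero.mp haf.symm)
  have hf0' : (f : K) ≠ 0 := Nat.cast_ne_zero.mpr hf0
  -- the squarefree part, with sign
  obtain ⟨m, hm, hdm⟩ : ∃ m : ℤ, Squarefree m ∧ discr K = (f : ℤ) ^ 2 * m := by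
    refine ⟨(discr K).sign * a, ?_, ?_⟩
    · rw [← Int.squarefree_natAbs, Int.natAbs_mul, Int.natAbs_natCast,
        Int.natAbs_sign_of_ne_zero hd0, one_mul]
      exact ha
    · have h3 : ((discr K).natAbs : ℤ) = (f : ℤ) ^ 2 * a := by exact_mod_cast haf.symm
      calc discr K = (discr K).sign * ((discr K).natAbs : ℤ) := (Int.sign_mul_natAbs _).symm
        _ = (f : ℤ) ^ 2 * ((discr K).sign * a) := by rw [h3]; ring
  have hx : (r / f) ^ 2 = (m : K) := by
    rw [div_pow, hr, hdm]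
    push_cast
    field_simp
  have hm1 : m ≠ 1 := by
    rintro rfl
    rw [Int.cast_one, sq] at hx
    apply hr'
    rcases mul_self_eq_one_iff.mp hx with h | h
    · rw [div_eq_iff hf0', one_mul] at h
      exact ⟨(f : ℚ), by rw [h, map_natCast]⟩
    · rw [div_eq_iff hf0'] at h
      exact ⟨-(f : ℚ), by rw [h, map_neg, map_natCast, neg_one_mul]⟩
  have h4 : m % 4 ≠ 0 := by
    intro h
    have h5 : IsUnit (2 : ℤ) := hm 2 (by
      obtain ⟨k, hk⟩ := Int.dvd_of_emod_eq_zero h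
      exact ⟨k, by rw [hk]; ring⟩)
    rcases Int.isUnit_iff.mp h5 with h6 | h6 <;> omega
  by_cases h1 : m % 4 = 1
  · exact ⟨m, r / f, Or.inl ⟨h1, hm, hm1⟩, hx⟩
  · refine ⟨4 * m, 2 * (r / f), Or.inr ⟨m, rfl, by omega, hm⟩, ?_⟩
    rw [mul_pow, hx]
    push_cast
    norm_num

/-- **The discriminant of `ℚ(√D)` is `D`**, for a fundamental discriminant `D`. -/
theorem discr_eq_of_sq (h2 : finrank ℚ K = 2) {D : ℤ} (hD : IsFundDiscr D) {δ : K}
    (hδ : δ ^ 2 = (D : K)) : discr K = D := by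
  obtain ⟨b, c, rfl⟩ := hD.exists_eq
  have hF : Fact (∀ r : ℚ, r ^ 2 ≠ -(((1 : ℤ) : ℚ) * c) + -(b : ℚ) * r) :=
    fact_of_not_isSquare (by rw [mul_one]; exact hD.not_isSquare)
  obtain ⟨e⟩ := exists_ringEquiv (b := b) (c := c) h2 hδ
  rw [← discr_eq_discr_of_ringEquiv _ e, discr_QF hD]

/-- **The discriminant of a quadratic field is a fundamental discriminant.** -/
theorem isFundDiscr_discr (h2 : finrank ℚ K = 2) : IsFundDiscr (discr K) := by
  obtain ⟨D, δ, hD, hδ⟩ := exists_sq_eq_fundDiscr (K := K) h2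
  rwa [discr_eq_of_sq h2 hD hδ]

/-- a quadratic field contains a square root of its discriminant, and is `ℚ(θ)` -/
theorem exists_ringEquiv_discr (h2 : finrank ℚ K = 2) :
    ∃ (b c : ℤ) (_ : Fact (∀ r : ℚ, r ^ 2 ≠ -(((1 : ℤ) : ℚ) * c) + -(b : ℚ) * r)),
      discr K = b ^ 2 - 4 * c ∧ Nonempty (QF 1 b c ≃+* K) := by
  obtain ⟨D, δ, hD, hδ⟩ := exists_sq_eq_fundDiscr (K := K) h2
  have hd := discr_eq_of_sq h2 hD hδ
  obtain ⟨b, c, rfl⟩ := hD.exists_eq
  have hF : Fact (∀ r : ℚ, r ^ 2 ≠ -(((1 : ℤ) : ℚ) * c) + -(b : ℚ) * r) :=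
    fact_of_not_isSquare (by rw [mul_one]; exact hD.not_isSquare)
  exact ⟨b, c, hF, hd, exists_ringEquiv h2 hδ⟩

/-- **The number of ideals of prime norm of a quadratic field.** -/
theorem card_absNorm_prime_kron (h2 : finrank ℚ K = 2) {p : ℕ} (hp : p.Prime) :
    (Nat.card {I : Ideal (𝓞 K) // Ideal.absNorm I = p} : ℤ) = 1 + kron (discr K) p := by
  obtain ⟨b, c, hF, hd, ⟨e⟩⟩ := exists_ringEquiv_discr (K := K) h2
  have hD : IsFundDiscr (b ^ 2 - 4 * c) := hd ▸ isFundDiscr_discr h2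
  rw [← card_absNorm_congr e, card_absNorm_prime hD hp, nroots_eq_kron b c hp, hd]

/-- **The number of ideals of norm `n` of a quadratic field is `∑_{d ∣ n} (discr K / d)`**
(Dirichlet). -/
theorem card_absNorm_eq_sum_kron (h2 : finrank ℚ K = 2) {n : ℕ} (hn : n ≠ 0) :
    (Nat.card {I : Ideal (𝓞 K) // Ideal.absNorm I = n} : ℤ) =
      ∑ d ∈ n.divisors, kron (discr K) d :=
  card_absNorm_eq_sum h2 (fun _ hp => card_absNorm_prime_kron h2 hp) hn

/-- **The zeta function of a quadratic field**: `ζ_K(s) = ζ(s) ∑ (discr K / n) n ^ (-s)`. -/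
theorem dedekindZeta_eq_mul_kron (h2 : finrank ℚ K = 2) {s : ℂ} (hs : 1 < s.re) :
    dedekindZeta K s =
      riemannZeta s * LSeries (fun n => ((kron (discr K) n : ℤ) : ℂ)) s :=
  dedekindZeta_eq_mul h2 (fun _ hp => card_absNorm_prime_kron h2 hp) hs

end Field

end Fermat.Agent.Cor.Bin
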