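import Fermat.Agent.Corollaries.ZetaK.QuadForm

/-!
# The primes of a quadratic field

Let `K = ℚ(θ)`, `θ² + b θ + c = 0`, be the quadratic field of the fundamental discriminant
`D = b² - 4c`.

* `card_absNorm_prime`: the number of ideals of prime norm `p` of `𝓞 K` is the number `nroots b c p`
  of roots of `X² + b X + c` modulo `p`;
* `prod_local`: the Euler factor of `K` at `p` is `(1 - T) (1 - (nroots b c p - 1) T)`, `T = p ^ (-s)`.
-/

set_option autoImplicit false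

open QuadraticAlgebra NumberField IsDedekindDomain

namespace Fermat.Agent.Cor.Bin

/-- the number of roots of `X² + b X + c` modulo `p` -/
noncomputable def nroots (b c : ℤ) (p : ℕ) : ℕ :=
  Nat.card {t : ZMod p // t * t + (b : ZMod p) * t + (c : ZMod p) = 0}

variable {b c : ℤ} [hF : Fact (∀ r : ℚ, r ^ 2 ≠ -(((1 : ℤ) : ℚ) * c) + -(b : ℚ) * r)]

/-! ### The coordinates -/

/-- `z = x + y θ` -/
theorem exists_coord (hD : IsFundDiscr (b ^ 2 - 4 * c)) (z : 𝓞 (QF 1 b c)) :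
    ∃ x y : ℤ, z = (x : 𝓞 (QF 1 b c)) + y * thetaQ 1 b c :=
  exists_comb (by simpa using hD) z

theorem coord_inj {x y x' y' : ℤ}
    (h : (x : 𝓞 (QF 1 b c)) + y * thetaQ 1 b c = (x' : 𝓞 (QF 1 b c)) + y' * thetaQ 1 b c) :
    x = x' ∧ y = y' := by
  have h1 := congrArg (fun z : 𝓞 (QF 1 b c) => (z : QF 1 b c)) h
  beta_reduce at h1
  rw [coe_comb, coe_comb] at h1
  have h2 : (x : ℚ) = x' := congrArg QuadraticAlgebra.re h1
  have h3 : (y : ℚ) = y' := congrArg QuadraticAlgebra.im h1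
  exact ⟨by exact_mod_cast h2, by exact_mod_cast h3⟩

theorem theta_sq' : thetaQ 1 b c * thetaQ 1 b c =
    -((c : ℤ) : 𝓞 (QF 1 b c)) - ((b : ℤ) : 𝓞 (QF 1 b c)) * thetaQ 1 b c := by
  have h := thetaQ_sq (a := 1) (b := b) (c := c)
  have h1 : ((1 : ℤ) : 𝓞 (QF 1 b c)) = 1 := Int.cast_one
  rw [h, h1, one_mul]

theorem norm_coord (x y : ℤ) :
    Algebra.norm ℤ ((x : 𝓞 (QF 1 b c)) + y * thetaQ 1 b c) = x ^ 2 - b * x * y + c * y ^ 2 := by
  have h := norm_comb (a := 1) (b := b) (c := c) x y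
  rwa [mul_one, one_mul, one_mul] at h

/-- `ℤ[θ] = 𝓞 K` -/
noncomputable def equivO (hD : IsFundDiscr (b ^ 2 - 4 * c)) :
    QuadraticAlgebra ℤ (-c) (-b) ≃+* 𝓞 (QF 1 b c) :=
  RingEquiv.ofBijective
    (QuadraticAlgebra.lift (R := ℤ) (a := -c) (b := -b) (A := 𝓞 (QF 1 b c))
      ⟨thetaQ 1 b c, by
        rw [theta_sq']
        simp only [zsmul_eq_mul, mul_one, Int.cast_neg, neg_mul]
        ring⟩ : QuadraticAlgebra ℤ (-c) (-b) →ₐ[ℤ] 𝓞 (QF 1 b c)).toRingHom (by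
    have key : ∀ z : QuadraticAlgebra ℤ (-c) (-b),
        (QuadraticAlgebra.lift (R := ℤ) (a := -c) (b := -b) (A := 𝓞 (QF 1 b c))
          ⟨thetaQ 1 b c, by
            rw [theta_sq']
            simp only [zsmul_eq_mul, mul_one, Int.cast_neg, neg_mul]
            ring⟩ : QuadraticAlgebra ℤ (-c) (-b) →ₐ[ℤ] 𝓞 (QF 1 b c)) z =
          (z.re : 𝓞 (QF 1 b c)) + z.im * thetaQ 1 b c := by
      intro z
      simp [QuadraticAlgebra.lift]
    constructor
    · intro z w h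
      have h' : (z.re : 𝓞 (QF 1 b c)) + z.im * thetaQ 1 b c =
          (w.re : 𝓞 (QF 1 b c)) + w.im * thetaQ 1 b c := by
        rw [← key z, ← key w]; exact h
      obtain ⟨h1, h2⟩ := coord_inj h'
      exact QuadraticAlgebra.ext h1 h2
    · intro z
      obtain ⟨x, y, rfl⟩ := exists_coord hD z
      exact ⟨⟨x, y⟩, key ⟨x, y⟩⟩)

theorem equivO_apply (hD : IsFundDiscr (b ^ 2 - 4 * c)) (x y : ℤ) :
    equivO hD ⟨x, y⟩ = (x : 𝓞 (QF 1 b c)) + y * thetaQ 1 b c := by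
  change (QuadraticAlgebra.lift (R := ℤ) (a := -c) (b := -b) (A := 𝓞 (QF 1 b c))
          ⟨thetaQ 1 b c, _⟩ : QuadraticAlgebra ℤ (-c) (-b) →ₐ[ℤ] 𝓞 (QF 1 b c)) ⟨x, y⟩ = _
  simp [QuadraticAlgebra.lift]

/-! ### Ideals of prime norm -/

/-- the homomorphism `θ ↦ t` -/
theorem exists_hom (hD : IsFundDiscr (b ^ 2 - 4 * c)) {p : ℕ} {t : ZMod p}
    (ht : t * t + (b : ZMod p) * t + (c : ZMod p) = 0) :
    ∃ φ : 𝓞 (QF 1 b c) →+* ZMod p, φ (thetaQ 1 b c) = t := by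
  have h : t * t = (-c : ℤ) • (1 : ZMod p) + (-b : ℤ) • t := by
    simp only [zsmul_eq_mul, mul_one, Int.cast_neg, neg_mul]
    linear_combination ht
  refine ⟨(QuadraticAlgebra.lift (R := ℤ) (a := -c) (b := -b) ⟨t, h⟩ :
    QuadraticAlgebra ℤ (-c) (-b) →ₐ[ℤ] ZMod p).toRingHom.comp (equivO hD).symm.toRingHom, ?_⟩
  have h1 : (equivO hD).symm (thetaQ 1 b c) = ⟨0, 1⟩ := by
    rw [RingEquiv.symm_apply_eq, equivO_apply]
    simp
  change (QuadraticAlgebra.lift (R := ℤ) (a := -c) (b := -b) ⟨t, h⟩ :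
    QuadraticAlgebra ℤ (-c) (-b) →ₐ[ℤ] ZMod p) ((equivO hD).symm (thetaQ 1 b c)) = t
  rw [h1]
  simp [QuadraticAlgebra.lift]

theorem hom_apply {R : Type*} [CommRing R] (φ : 𝓞 (QF 1 b c) →+* R) (x y : ℤ) :
    φ ((x : 𝓞 (QF 1 b c)) + y * thetaQ 1 b c) = x + y * φ (thetaQ 1 b c) := by
  rw [map_add, map_mul, map_intCast, map_intCast]

theorem hom_root {R : Type*} [CommRing R] (φ : 𝓞 (QF 1 b c) →+* R) :
    φ (thetaQ 1 b c) * φ (thetaQ 1 b c) + (b : R) * φ (thetaQ 1 b c) + (c : R) = 0 := by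
  have h := congrArg φ (theta_sq' (b := b) (c := c))
  rw [map_mul, map_sub, map_neg, map_mul, map_intCast, map_intCast] at h
  linear_combination h

theorem absNorm_ker {p : ℕ} [hp : Fact p.Prime] (φ : 𝓞 (QF 1 b c) →+* ZMod p) :
    Ideal.absNorm (RingHom.ker φ) = p := by
  have hs : Function.Surjective φ := ZMod.ringHom_surjective φ
  rw [Ideal.absNorm_apply, Submodule.cardQuot_apply,
    Nat.card_congr (RingHom.quotientKerEquivOfSurjective hs).toEquiv, Nat.card_zmod]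

theorem exists_hom_of_absNorm {K : Type*} [Field K] [NumberField K] {p : ℕ} [hp : Fact p.Prime]
    {I : Ideal (𝓞 K)} (hI : Ideal.absNorm I = p) :
    ∃ φ : 𝓞 K →+* ZMod p, RingHom.ker φ = I := by
  have hcard : Nat.card (𝓞 K ⧸ I) = p := by
    rw [← hI, Ideal.absNorm_apply, Submodule.cardQuot_apply]
  have hfin : Finite (𝓞 K ⧸ I) := Nat.finite_of_card_ne_zero (by rw [hcard]; exact hp.out.ne_zero)
  let _ : Fintype (𝓞 K ⧸ I) := Fintype.ofFinite _
  rw [Nat.card_eq_fintype_card] at hcard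
  let e : ZMod p ≃+* 𝓞 K ⧸ I := ZMod.ringEquivOfPrime _ hp.out hcard
  refine ⟨e.symm.toRingHom.comp (Ideal.Quotient.mk I), ?_⟩
  ext z
  rw [RingHom.mem_ker]
  change e.symm (Ideal.Quotient.mk I z) = 0 ↔ _
  rw [map_eq_zero_iff _ e.symm.injective, Ideal.Quotient.eq_zero_iff_mem]

/-- **The number of ideals of prime norm.** -/
theorem card_absNorm_prime (hD : IsFundDiscr (b ^ 2 - 4 * c)) {p : ℕ} (hp : p.Prime) :
    Nat.card {I : Ideal (𝓞 (QF 1 b c)) // Ideal.absNorm I = p} = nroots b c p := by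
  have hp' : Fact p.Prime := ⟨hp⟩
  symm
  refine Nat.card_congr (Equiv.ofBijective (fun t =>
    ⟨RingHom.ker (exists_hom hD t.2).choose, absNorm_ker _⟩) ⟨?_, ?_⟩)
  · rintro ⟨t, ht⟩ ⟨t', ht'⟩ h
    have h1 : RingHom.ker (exists_hom hD ht).choose = RingHom.ker (exists_hom hD ht').choose :=
      congrArg (fun x => x.1) h
    obtain ⟨u, hu⟩ := ZMod.intCast_surjective t
    have h2 : thetaQ 1 b c - (u : 𝓞 (QF 1 b c)) ∈ RingHom.ker (exists_hom hD ht).choose := by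
      rw [RingHom.mem_ker, map_sub, map_intCast, (exists_hom hD ht).choose_spec, hu, sub_self]
    rw [h1, RingHom.mem_ker, map_sub, map_intCast, (exists_hom hD ht').choose_spec, hu,
      sub_eq_zero] at h2
    exact Subtype.ext h2.symm
  · rintro ⟨I, hI⟩
    obtain ⟨φ, hφ⟩ := exists_hom_of_absNorm hI
    refine ⟨⟨φ (thetaQ 1 b c), hom_root φ⟩, Subtype.ext ?_⟩
    have h1 : (exists_hom hD (hom_root φ)).choose = φ := by
      ext z
      obtain ⟨x, y, rfl⟩ := exists_coord hD z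
      rw [hom_apply, hom_apply, (exists_hom hD (hom_root φ)).choose_spec]
    change RingHom.ker (exists_hom hD (hom_root φ)).choose = I
    rw [h1, hφ]

end Fermat.Agent.Cor.Bin
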