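import Fermat.Agent.Corollaries.Bin.Count
import Fermat.Agent.Corollaries.Bin.Disc

/-!
# The numbers of representations by the binary forms of class number one

For `n ≥ 1`:

* `card_sq_add_sq`: `#{(x, y) ∈ ℤ² : x² + y² = n} = 4 ∑_{d ∣ n} χ₄(d)` (Jacobi);
* `card_sq_add_mul_add_sq`: `#{x² + x y + y² = n} = 6 ∑_{d ∣ n} (d / 3)`;
* `card_sq_add_two_mul_sq`: `#{x² + 2 y² = n} = 2 ∑_{d ∣ n} χ₈'(d)`;
* `card_class_number_one`: `#{x² + x y + (q + 1)/4 y² = n} = 2 ∑_{d ∣ n} (d / q)` for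
  `q = 7, 11, 19, 43, 67, 163`.
-/

set_option autoImplicit false

open QuadraticAlgebra NumberField
open scoped NumberTheorySymbols

namespace Fermat.Agent.Cor.Bin

/-! ### The numbers of roots -/

theorem nroots_of_ne_two (b c : ℤ) {p : ℕ} [hp : Fact p.Prime] (h2 : p ≠ 2) :
    (nroots b c p : ℤ) = 1 + legendreSym p (b ^ 2 - 4 * c) := by
  have h2' : (2 : ZMod p) ≠ 0 := by
    have : ((2 : ℕ) : ZMod p) ≠ 0 := by
      rw [Ne, ZMod.natCast_eq_zero_iff, Nat.prime_dvd_prime_iff_eq hp.out Nat.prime_two]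
      exact h2
    exact_mod_cast this
  have h3 := legendreSym.card_sqrts p h2 (b ^ 2 - 4 * c)
  rw [add_comm, ← h3, nroots]
  norm_cast
  rw [← Set.ncard_eq_toFinset_card', ← Nat.card_coe_set_eq]
  refine Nat.card_congr
    { toFun := fun t => ⟨2 * t.1 + (b : ZMod p), ?_⟩
      invFun := fun u => ⟨(u.1 - (b : ZMod p)) / 2, ?_⟩
      left_inv := fun t => Subtype.ext ?_
      right_inv := fun u => Subtype.ext ?_ }
  · change (2 * t.1 + (b : ZMod p)) ^ 2 = _
    push_cast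
    linear_combination 4 * t.2
  · have h4 : u.1 ^ 2 = ((b ^ 2 - 4 * c : ℤ) : ZMod p) := u.2
    push_cast at h4
    field_simp
    linear_combination h4
  · change (2 * t.1 + (b : ZMod p) - (b : ZMod p)) / 2 = t.1
    field_simp
    ring
  · change 2 * ((u.1 - (b : ZMod p)) / 2) + (b : ZMod p) = u.1
    field_simp
    ring

theorem nroots_zero_two (c : ℤ) : nroots 0 c 2 = 1 := by
  have h : ∀ u : ZMod 2, Nat.card {t : ZMod 2 // t * t + (0 : ℤ) * t + u = 0} = 1 := by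
    intro u
    rw [Nat.card_eq_fintype_card]
    revert u
    decide
  exact h c

theorem nroots_one_two (c : ℤ) : nroots 1 c 2 = if (c : ZMod 2) = 0 then 2 else 0 := by
  have h : ∀ u : ZMod 2, Nat.card {t : ZMod 2 // t * t + (1 : ℤ) * t + u = 0} =
      if u = 0 then 2 else 0 := by
    intro u
    rw [Nat.card_eq_fintype_card]
    revert u
    decide
  exact h c

/-! ### The characters -/

/-- a character modulo `N` as a function on `ℕ` -/
def ofMulChar {N : ℕ} [Nontrivial (ZMod N)] (χ : MulChar (ZMod N) ℤ) : ℕ →*₀ ℤ where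
  toFun n := χ n
  map_zero' := by rw [Nat.cast_zero, MulChar.map_zero]
  map_one' := by rw [Nat.cast_one, MulChar.map_one]
  map_mul' m n := by rw [Nat.cast_mul, map_mul]

instance : Nontrivial (ZMod 4) := ZMod.nontrivial_iff.mpr (by norm_num)
instance : Nontrivial (ZMod 8) := ZMod.nontrivial_iff.mpr (by norm_num)

/-- the Legendre symbol `(n / q)` as a function of `n` -/
def ofLegendre (q : ℕ) [Fact q.Prime] : ℕ →*₀ ℤ where
  toFun n := legendreSym q n
  map_zero' := by rw [Nat.cast_zero, legendreSym.at_zero]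
  map_one' := by rw [Nat.cast_one, legendreSym.at_one]
  map_mul' m n := by rw [Nat.cast_mul, legendreSym.mul]

theorem legendreSym_sq_mul {p : ℕ} [hp : Fact p.Prime] (h2 : p ≠ 2) (a : ℤ) :
    legendreSym p (4 * a) = legendreSym p a := by
  have h3 : ((2 : ℤ) : ZMod p) ≠ 0 := by
    have : ((2 : ℕ) : ZMod p) ≠ 0 := by
      rw [Ne, ZMod.natCast_eq_zero_iff, Nat.prime_dvd_prime_iff_eq hp.out Nat.prime_two]
      exact h2
    exact_mod_cast this
  rw [show (4 * a : ℤ) = 2 ^ 2 * a by ring, legendreSym.mul, legendreSym.sq_one' p h3, one_mul]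

theorem nroots_four {p : ℕ} (hp : p.Prime) : (nroots 0 1 p : ℤ) = 1 + ZMod.χ₄ p := by
  rcases eq_or_ne p 2 with rfl | h2
  · rw [nroots_zero_two]
    decide
  · have : Fact p.Prime := ⟨hp⟩
    rw [nroots_of_ne_two _ _ h2, show ((0 : ℤ) ^ 2 - 4 * 1) = 4 * (-1) by norm_num,
      legendreSym_sq_mul h2, legendreSym.at_neg_one h2]

theorem nroots_eight {p : ℕ} (hp : p.Prime) : (nroots 0 2 p : ℤ) = 1 + ZMod.χ₈' p := by
  rcases eq_or_ne p 2 with rfl | h2
  · rw [nroots_zero_two]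
    decide
  · have : Fact p.Prime := ⟨hp⟩
    rw [nroots_of_ne_two _ _ h2, show ((0 : ℤ) ^ 2 - 4 * 2) = 4 * (-2) by norm_num,
      legendreSym_sq_mul h2, legendreSym.at_neg_two h2]

theorem nroots_prime {q m : ℕ} [hq : Fact q.Prime] (hqm : q + 1 = 4 * m) {p : ℕ} (hp : p.Prime) :
    (nroots 1 m p : ℤ) = 1 + legendreSym q p := by
  have hq2 : q ≠ 2 := by omega
  rcases eq_or_ne p 2 with rfl | h2
  · rw [nroots_one_two]
    have h3 : legendreSym q ((2 : ℕ) : ℤ) = ZMod.χ₈ q := legendreSym.at_two hq2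
    rw [h3]
    have h4 : (((m : ℤ) : ZMod 2) = 0) ↔ 2 ∣ m := by
      rw [Int.cast_natCast, ZMod.natCast_eq_zero_iff]
    have h5 : q % 8 = 7 ∨ q % 8 = 3 := by omega
    rcases h5 with h5 | h5
    · rw [if_pos (h4.mpr (by omega)), ZMod.χ₈_nat_eq_if_mod_eight, if_neg (by omega),
        if_pos (by omega)]
      norm_num
    · rw [if_neg (fun h => by have := h4.mp h; omega), ZMod.χ₈_nat_eq_if_mod_eight,
        if_neg (by omega), if_neg (by omega)]
      norm_num
  · have : Fact p.Prime := ⟨hp⟩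
    rw [nroots_of_ne_two _ _ h2]
    have h3 : ((1 : ℤ) ^ 2 - 4 * (m : ℤ)) = (-1) * (q : ℤ) := by
      have : (q : ℤ) + 1 = 4 * m := by exact_mod_cast hqm
      linarith
    rw [h3, legendreSym.mul, legendreSym.at_neg_one h2]
    rcases eq_or_ne p q with rfl | hpq
    · have h0 : legendreSym p (p : ℤ) = 0 := by
        rw [legendreSym.eq_zero_iff]
        simp
      rw [h0, mul_zero]
    · have h5 := legendreSym.quadratic_reciprocity' h2 hq2 (p := p) (q := q)
      rw [h5, ZMod.χ₄_eq_neg_one_pow (hp.eq_two_or_odd.resolve_left h2)]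
      have h6 : Odd (q / 2) := ⟨(q / 2 - 1) / 2, by omega⟩
      rw [pow_mul', Odd.neg_one_pow h6]

/-! ### Class number one -/

theorem not_isSquare_neg {D : ℤ} (h : D < 0) : ¬ IsSquare D := by
  rintro ⟨t, rfl⟩
  exact absurd (mul_self_nonneg t) (not_le.mpr h)

theorem fact_QF {b c : ℤ} (h : b ^ 2 - 4 * c < 0) :
    Fact (∀ r : ℚ, r ^ 2 ≠ -(((1 : ℤ) : ℚ) * c) + -(b : ℚ) * r) :=
  fact_of_not_isSquare (by
    rw [mul_one]
    exact not_isSquare_neg h)

/-- **Dirichlet's formula**, with the criterion for class number one built in. -/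
theorem reprs_eq_sum_of_nroots {b c : ℤ} (hD : IsFundDiscr (b ^ 2 - 4 * c))
    (hneg : b ^ 2 - 4 * c < 0)
    (h : ∀ p : ℕ, p.Prime → 9 * (p : ℤ) ^ 2 ≤ 4 * (4 * c - b ^ 2) → nroots b c p = 0)
    {κ : ℕ →*₀ ℤ} (hκ : ∀ p : ℕ, p.Prime → (nroots b c p : ℤ) = 1 + κ p) {n : ℕ} (hn : n ≠ 0) :
    (reprs b c n : ℤ) = reprs b c 1 * ∑ d ∈ n.divisors, κ d := by
  have hF := fact_QF hneg
  have hP := isPrincipalIdealRing_of_nroots hD hneg h
  exact reprs_eq_sum hD hneg hκ hn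

/-- a finite count in a box -/
theorem card_box {P : ℤ × ℤ → Prop} [DecidablePred P] (N : ℤ)
    (h : ∀ v, P v → |v.1| ≤ N ∧ |v.2| ≤ N) :
    Nat.card {v // P v} = ((Finset.Icc (-N) N ×ˢ Finset.Icc (-N) N).filter P).card := by
  refine Nat.subtype_card _ fun v => ?_
  rw [Finset.mem_filter, Finset.mem_product, Finset.mem_Icc, Finset.mem_Icc, ← abs_le, ← abs_le]
  exact ⟨fun h' => h'.2, fun h' => ⟨h v h', h'⟩⟩

theorem isFundDiscr_neg_four : IsFundDiscr (0 ^ 2 - 4 * 1) := by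
  refine Or.inr ⟨-1, by norm_num, Or.inr (by norm_num), ?_⟩
  exact (IsUnit.neg isUnit_one).squarefree

theorem isFundDiscr_neg_eight : IsFundDiscr (0 ^ 2 - 4 * 2) := by
  refine Or.inr ⟨-2, by norm_num, Or.inl (by norm_num), ?_⟩
  exact (Int.prime_iff_natAbs_prime.mpr (by norm_num)).squarefree

theorem isFundDiscr_neg_prime {q m : ℕ} (hq : q.Prime) (hqm : q + 1 = 4 * m) :
    IsFundDiscr (1 ^ 2 - 4 * (m : ℤ)) := by
  have h : (1 : ℤ) ^ 2 - 4 * (m : ℤ) = -(q : ℤ) := by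
    have : (q : ℤ) + 1 = 4 * m := by exact_mod_cast hqm
    linarith
  refine Or.inl ⟨by omega, ?_, by omega⟩
  rw [h]
  exact (Int.prime_iff_natAbs_prime.mpr (by rwa [Int.natAbs_neg, Int.natAbs_natCast])).squarefree

theorem reprs_four : reprs 0 1 1 = 4 := by
  rw [reprs, card_box 1]
  · decide
  · rintro ⟨x, y⟩ h
    have h' : x ^ 2 + y ^ 2 = 1 := by simpa using h
    constructor
    · exact abs_le_of_sq_le_sq (by nlinarith [sq_nonneg y]) (by norm_num)
    · exact abs_le_of_sq_le_sq (by nlinarith [sq_nonneg x]) (by norm_num)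

theorem reprs_three : reprs 1 1 1 = 6 := by
  rw [reprs, card_box 1]
  · decide
  · rintro ⟨x, y⟩ h
    have h' : x ^ 2 + x * y + y ^ 2 = 1 := by simpa using h
    have hx : x ^ 2 < 2 ^ 2 := by nlinarith [sq_nonneg (2 * y + x)]
    have hy : y ^ 2 < 2 ^ 2 := by nlinarith [sq_nonneg (2 * x + y)]
    have hx' := abs_lt_of_sq_lt_sq hx (by norm_num)
    have hy' := abs_lt_of_sq_lt_sq hy (by norm_num)
    exact ⟨Int.lt_add_one_iff.mp hx', Int.lt_add_one_iff.mp hy'⟩

/-! ### The formulas -/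

/-- **Jacobi's two squares theorem**: for `n ≥ 1` the number of pairs `(x, y)` of integers with
`x² + y² = n` is `4 ∑_{d ∣ n} χ₄(d)`. -/
theorem card_sq_add_sq {n : ℕ} (hn : n ≠ 0) :
    (Nat.card {v : ℤ × ℤ // v.1 ^ 2 + v.2 ^ 2 = n} : ℤ) = 4 * ∑ d ∈ n.divisors, ZMod.χ₄ d := by
  have h := reprs_eq_sum_of_nroots (b := 0) (c := 1) isFundDiscr_neg_four (by norm_num)
    (fun p hp hle => by
      exfalso
      have : (2 : ℤ) ≤ p := by exact_mod_cast hp.two_le
      nlinarith) (κ := ofMulChar ZMod.χ₄) (fun p hp => nroots_four hp) hn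
  rw [reprs_four] at h
  rw [← show (reprs 0 1 n : ℤ) = 4 * ∑ d ∈ n.divisors, ZMod.χ₄ d from h]
  congr 1
  refine Nat.card_congr (Equiv.subtypeEquivRight fun v => ?_)
  rw [zero_mul, zero_mul, add_zero, one_mul]

/-- For `n ≥ 1` the number of pairs `(x, y)` of integers with `x² + x y + y² = n` is
`6 ∑_{d ∣ n} (d / 3)`. -/
theorem card_sq_add_mul_add_sq {n : ℕ} (hn : n ≠ 0) :
    (Nat.card {v : ℤ × ℤ // v.1 ^ 2 + v.1 * v.2 + v.2 ^ 2 = n} : ℤ) =
      6 * ∑ d ∈ n.divisors, J(d | 3) := by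
  have : Fact (Nat.Prime 3) := ⟨Nat.prime_three⟩
  have h := reprs_eq_sum_of_nroots (b := 1) (c := ((1 : ℕ) : ℤ))
    (isFundDiscr_neg_prime (q := 3) Nat.prime_three (by norm_num)) (by norm_num)
    (fun p hp hle => by
      exfalso
      have : (2 : ℤ) ≤ p := by exact_mod_cast hp.two_le
      push_cast at hle
      nlinarith) (κ := ofLegendre 3) (fun p hp => nroots_prime (q := 3) (by norm_num) hp) hn
  rw [Nat.cast_one, reprs_three] at h
  have h2 : ∑ d ∈ n.divisors, J(d | 3) = ∑ d ∈ n.divisors, ofLegendre 3 d :=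
    Finset.sum_congr rfl fun d _ => (jacobiSym.legendreSym.to_jacobiSym 3 d).symm
  rw [h2, show (6 : ℤ) = ((6 : ℕ) : ℤ) from rfl, ← h]
  congr 1
  refine Nat.card_congr (Equiv.subtypeEquivRight fun v => ?_)
  rw [one_mul, one_mul]

/-- For `n ≥ 1` the number of pairs `(x, y)` of integers with `x² + 2 y² = n` is
`2 ∑_{d ∣ n} χ₈'(d)`. -/
theorem card_sq_add_two_mul_sq {n : ℕ} (hn : n ≠ 0) :
    (Nat.card {v : ℤ × ℤ // v.1 ^ 2 + 2 * v.2 ^ 2 = n} : ℤ) =
      2 * ∑ d ∈ n.divisors, ZMod.χ₈' d := by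
  have h := reprs_eq_sum_of_nroots (b := 0) (c := 2) isFundDiscr_neg_eight (by norm_num)
    (fun p hp hle => by
      exfalso
      have : (2 : ℤ) ≤ p := by exact_mod_cast hp.two_le
      nlinarith) (κ := ofMulChar ZMod.χ₈') (fun p hp => nroots_eight hp) hn
  rw [reprs_one_of_lt (by norm_num)] at h
  rw [← show (reprs 0 2 n : ℤ) = 2 * ∑ d ∈ n.divisors, ZMod.χ₈' d from h]
  congr 1
  refine Nat.card_congr (Equiv.subtypeEquivRight fun v => ?_)
  rw [zero_mul, zero_mul, add_zero]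

/-- For a prime `q ≡ 3 mod 4`, `q = 4 m - 1 > 3`, such that `X² + X + m` has no root modulo the
primes `p` with `9 p² ≤ 4 q`: the number of pairs `(x, y)` of integers with `x² + x y + m y² = n`
is `2 ∑_{d ∣ n} (d / q)`. -/
theorem card_of_nroots {q m : ℕ} (hq : q.Prime) (hqm : q + 1 = 4 * m) (h3 : q ≠ 3)
    (h : ∀ p : ℕ, p.Prime → 9 * p ^ 2 ≤ 4 * q → nroots 1 m p = 0) {n : ℕ} (hn : n ≠ 0) :
    (Nat.card {v : ℤ × ℤ // v.1 ^ 2 + v.1 * v.2 + m * v.2 ^ 2 = n} : ℤ) =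
      2 * ∑ d ∈ n.divisors, J(d | q) := by
  have : Fact q.Prime := ⟨hq⟩
  have hqm' : (q : ℤ) + 1 = 4 * m := by exact_mod_cast hqm
  have hq4 : 4 < q := by
    have := hq.two_le
    omega
  have h1 := reprs_eq_sum_of_nroots (b := 1) (c := (m : ℤ))
    (isFundDiscr_neg_prime hq hqm) (by omega)
    (fun p hp hle => h p hp (by
      have h4 : 4 * (4 * (m : ℤ) - 1 ^ 2) = 4 * q := by linarith
      rw [h4] at hle
      exact_mod_cast hle)) (κ := ofLegendre q) (fun p hp => nroots_prime hqm hp) hn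
  rw [reprs_one_of_lt (by omega)] at h1
  have h2 : ∑ d ∈ n.divisors, J(d | q) = ∑ d ∈ n.divisors, ofLegendre q d :=
    Finset.sum_congr rfl fun d _ => (jacobiSym.legendreSym.to_jacobiSym q d).symm
  rw [h2, show (2 : ℤ) = ((2 : ℕ) : ℤ) from rfl, ← h1]
  congr 1
  refine Nat.card_congr (Equiv.subtypeEquivRight fun v => ?_)
  rw [one_mul]

/-- the criterion holds for the six discriminants -/
theorem nroots_check {q m : ℕ}
    (hq : (q, m) ∈ ({(7, 2), (11, 3), (19, 5), (43, 11), (67, 17), (163, 41)} : Finset (ℕ × ℕ)))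
    (p : ℕ) (hp : p.Prime) (hle : 9 * p ^ 2 ≤ 4 * q) : nroots 1 m p = 0 := by
  have hp2 := hp.two_le
  have hp8 : p ≤ 8 := by
    have : q ≤ 163 := by
      revert hq
      simp only [Finset.mem_insert, Finset.mem_singleton, Prod.mk.injEq]
      omega
    nlinarith
  have key : ∀ (m p : ℕ) [NeZero p], (∀ t : ZMod p, t * t + ((1 : ℤ) : ZMod p) * t + ((m : ℤ) : ZMod p) ≠ 0) →
      nroots 1 m p = 0 := by
    intro m p _ h
    rw [nroots, Nat.card_eq_zero]
    left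
    exact ⟨fun t => h t.1 t.2⟩
  simp only [Finset.mem_insert, Finset.mem_singleton, Prod.mk.injEq] at hq
  rcases hq with ⟨rfl, rfl⟩ | ⟨rfl, rfl⟩ | ⟨rfl, rfl⟩ | ⟨rfl, rfl⟩ | ⟨rfl, rfl⟩ | ⟨rfl, rfl⟩ <;>
    interval_cases p <;>
    first
    | (exfalso; omega)
    | (exfalso; revert hp; norm_num; done)
    | (apply key; decide)

/-- **The six forms of odd discriminant of class number one** besides `x² + x y + y²`: for
`(q, m) = (7, 2), (11, 3), (19, 5), (43, 11), (67, 17), (163, 41)` and `n ≥ 1` the number of pairs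
`(x, y)` of integers with `x² + x y + m y² = n` is `2 ∑_{d ∣ n} (d / q)`. -/
theorem card_class_number_one {q m : ℕ}
    (hq : (q, m) ∈ ({(7, 2), (11, 3), (19, 5), (43, 11), (67, 17), (163, 41)} : Finset (ℕ × ℕ)))
    {n : ℕ} (hn : n ≠ 0) :
    (Nat.card {v : ℤ × ℤ // v.1 ^ 2 + v.1 * v.2 + m * v.2 ^ 2 = n} : ℤ) =
      2 * ∑ d ∈ n.divisors, J(d | q) := by
  have h := nroots_check hq
  simp only [Finset.mem_insert, Finset.mem_singleton, Prod.mk.injEq] at hq
  rcases hq with ⟨rfl, rfl⟩ | ⟨rfl, rfl⟩ | ⟨rfl, rfl⟩ | ⟨rfl, rfl⟩ | ⟨rfl, rfl⟩ | ⟨rfl, rfl⟩ <;>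
    exact card_of_nroots (by norm_num) (by norm_num) (by norm_num) h hn

end Fermat.Agent.Cor.Bin
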