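import Fermat.Agent.Corollaries.Bin.FormIdl
import Fermat.Agent.Corollaries.Ray.ClassNum

/-!
# Dirichlet's mass formula; the class number is the number of reduced forms

`D < 0` a fundamental discriminant, `f` running over the reduced forms `a x² + b x y + c y²` of
discriminant `D`: `|b| ≤ a ≤ c`, and `0 ≤ b` if `|b| = a` or `a = c`.

* `mass_formula`: `∑_f #{(x, y) ∈ ℤ² : f(x, y) = n} = w ∑_{d ∣ n} (D / d)` for `n ≥ 1`, `w = 6, 4, 2`
  for `D = -3`, `D = -4`, `D < -4` (Dirichlet 1839);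
* `classNumber_eq_hForm`: the class number of the quadratic field of discriminant `D` is the number
  of proper equivalence classes of positive definite forms of discriminant `D`, which is the number of
  reduced forms (`classNumber_eq_card_red`, `classNumber_eq_redSet`) (Gauss, Dirichlet, Dedekind).
-/

set_option autoImplicit false

open QuadraticAlgebra NumberField
open scoped nonZeroDivisors

namespace Fermat.Agent.Cor.Bin

open Ray

section

variable {e m : ℤ} [hF : Fact (∀ r : ℚ, r ^ 2 ≠ -(((1 : ℤ) : ℚ) * m) + -(e : ℚ) * r)]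

/-- the representations of `n` by `f` are the elements of norm `a n` of the ideal `(a, τ)` -/
theorem card_val_eq (hD : IsFundDiscr (e ^ 2 - 4 * m)) {f : BForm} (hf : f.disc = e ^ 2 - 4 * m)
    (hfa : 0 < f.a) (n : ℕ) :
    Nat.card {v : ℤ × ℤ // f.val v.1 v.2 = n} =
      Nat.card {z : 𝓞 (QF 1 e m) // z ∈ idB e m f ∧ Algebra.norm ℤ z = f.a * n} := by
  refine Nat.card_congr (Equiv.ofBijective (fun v =>
    ⟨((v.1.1 * f.a : ℤ) : 𝓞 (QF 1 e m)) + ((-v.1.2 : ℤ) : 𝓞 (QF 1 e m)) * tau e m f, ?_⟩)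
      ⟨?_, ?_⟩)
  · refine ⟨(mem_idB hD hf).mpr ⟨_, _, rfl⟩, ?_⟩
    rw [norm_val hf, v.2]
  · rintro ⟨⟨x, y⟩, h⟩ ⟨⟨x', y'⟩, h'⟩ E
    obtain ⟨h1, h2⟩ := tau_inj f (congrArg (fun z => z.1) E)
    have h3 : x = x' := mul_right_cancel₀ hfa.ne' h1
    have h4 : y = y' := neg_injective h2
    subst h3 h4
    rfl
  · rintro ⟨z, hz, hN⟩
    obtain ⟨u, v, rfl⟩ := (mem_idB hD hf).mp hz
    refine ⟨⟨(u, -v), ?_⟩, Subtype.ext ?_⟩
    · have h1 := norm_val hf u (-v)
      rw [neg_neg, hN] at h1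
      exact (mul_left_cancel₀ hfa.ne' h1).symm
    · change ((u * f.a : ℤ) : 𝓞 (QF 1 e m)) + ((- -v : ℤ) : 𝓞 (QF 1 e m)) * tau e m f = _
      rw [neg_neg]

/-- **the number of representations of `n` by `f`** is the number of units times the number of ideals
`J` of norm `n` such that `J (a, τ)` is principal. -/
theorem card_val_eq_mul (hD : IsFundDiscr (e ^ 2 - 4 * m)) (hneg : e ^ 2 - 4 * m < 0)
    {f : BForm} (hf : f.disc = e ^ 2 - 4 * m) (hfa : 0 < f.a) {n : ℕ} (hn : n ≠ 0) :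
    Nat.card {v : ℤ × ℤ // f.val v.1 v.2 = n} =
      reprs e m 1 * Nat.card {J : Ideal (𝓞 (QF 1 e m)) // Ideal.absNorm J = n ∧
        (J * idB e m f).IsPrincipal} := by
  rw [card_val_eq hD hf hfa, reprs_eq hD]
  refine Eq.trans ?_ (mul_comm _ _)
  rw [← Nat.card_prod]
  symm
  have hI0 : idB e m f ≠ 0 := idB_ne_bot f hfa.ne'
  let g : {J : Ideal (𝓞 (QF 1 e m)) // Ideal.absNorm J = n ∧ (J * idB e m f).IsPrincipal} →
    𝓞 (QF 1 e m) := fun J => J.2.2.principal.choose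
  have hg : ∀ J, Ideal.span {g J} = J.1 * idB e m f := fun J =>
    (J.2.2.principal.choose_spec).symm
  have hmem : ∀ J, g J ∈ idB e m f := by
    intro J
    have h1 : g J ∈ J.1 * idB e m f := by
      rw [← hg J]
      exact Ideal.mem_span_singleton_self _
    have h2 : J.1 * idB e m f ≤ idB e m f := Ideal.mul_le_right
    exact h2 h1
  have hnorm : ∀ J, Algebra.norm ℤ (g J) = f.a * n := by
    intro J
    have h1 := congrArg Ideal.absNorm (hg J)
    rw [Ideal.absNorm_span_singleton, map_mul, J.2.1, absNorm_idB hD hf] at h1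
    have h2 := norm_nonneg' hD hneg (g J)
    have h3 : ((Algebra.norm ℤ (g J)).natAbs : ℤ) = (n : ℤ) * (f.a.natAbs : ℤ) := by
      exact_mod_cast h1
    rw [Int.natAbs_of_nonneg h2, Int.natAbs_of_nonneg hfa.le] at h3
    rw [h3, mul_comm]
  refine Nat.card_congr (Equiv.ofBijective (fun x => ⟨g x.1 * x.2.1, ?_⟩) ⟨?_, ?_⟩)
  · refine ⟨(idB e m f).mul_mem_right _ (hmem _), ?_⟩
    rw [map_mul, hnorm, x.2.2]
    simp
  · rintro ⟨I, ⟨u, hu⟩⟩ ⟨J, ⟨w, hw⟩⟩ h
    have h1 : g I * u = g J * w := congrArg (fun z => z.1) h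
    have hu' := isUnit_of_norm_one u (by simpa using hu)
    have hw' := isUnit_of_norm_one w (by simpa using hw)
    have h2 : I = J := by
      apply Subtype.ext
      apply mul_right_cancel₀ hI0
      rw [← hg I, ← hg J, ← Ideal.span_singleton_mul_right_unit hu' (g I),
        ← Ideal.span_singleton_mul_right_unit hw' (g J), h1]
    subst h2
    have h3 : g I ≠ 0 := by
      intro h0
      have := hnorm I
      rw [h0, Algebra.norm_zero] at this
      have h4 : f.a * (n : ℤ) ≠ 0 := mul_ne_zero hfa.ne' (by exact_mod_cast hn)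
      exact h4 this.symm
    have h4 : u = w := mul_left_cancel₀ h3 h1
    subst h4
    rfl
  · rintro ⟨z, hz, hN⟩
    obtain ⟨J, hJ⟩ := Ideal.dvd_iff_le.mpr ((Ideal.span_singleton_le_iff_mem _).mpr hz)
    have hJ' : J * idB e m f = Ideal.span {z} := by rw [hJ]; exact mul_comm _ _
    have hJN : Ideal.absNorm J = n := by
      have h1 := congrArg Ideal.absNorm hJ'
      rw [Ideal.absNorm_span_singleton, map_mul, hN, absNorm_idB hD hf, Int.natAbs_mul,
        Int.natAbs_natCast, mul_comm] at h1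
      exact Nat.eq_of_mul_eq_mul_left (Int.natAbs_pos.mpr hfa.ne') h1
    let J' : {J : Ideal (𝓞 (QF 1 e m)) // Ideal.absNorm J = n ∧ (J * idB e m f).IsPrincipal} :=
      ⟨J, hJN, ⟨⟨z, hJ'⟩⟩⟩
    have h1 : Associated (g J') z := by
      rw [← Ideal.span_singleton_eq_span_singleton, hg J']
      exact hJ'
    obtain ⟨u, hu⟩ := h1
    refine ⟨⟨J', ⟨(u : 𝓞 (QF 1 e m)), ?_⟩⟩, Subtype.ext hu⟩
    rw [norm_of_isUnit hD hneg u.isUnit, Nat.cast_one]

/-- for every ideal `J ≠ 0` there is exactly one reduced form `f` with `J (a, τ)` principal -/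
theorem existsUnique_red (hD : IsFundDiscr (e ^ 2 - 4 * m)) (hneg : e ^ 2 - 4 * m < 0)
    {J : Ideal (𝓞 (QF 1 e m))} (hJ : J ≠ ⊥) :
    ∃! C : BForm.RForm (e ^ 2 - 4 * m), (J * idB e m C.1.1).IsPrincipal := by
  obtain ⟨f, hf, hfa, hfJ⟩ := exists_form hD hJ
  obtain ⟨g, hfg, hg⟩ := BForm.exists_red (f := f) hfa (by rw [hf]; exact hneg)
  have hgd : g.disc = e ^ 2 - 4 * m := by rw [hfg.disc_eq, hf]
  have hga : 0 < g.a := hfg.a_pos hfa (by rw [hf]; exact hneg)
  let C : BForm.RForm (e ^ 2 - 4 * m) := ⟨⟨g, prim_of_fund hD hgd, hgd, hga⟩, hg⟩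
  refine ⟨C, ?_, fun C' hC' => ?_⟩
  · obtain ⟨p, q, r, s, hdet, hsub⟩ := hfg
    have h1 := span_mul_idB hf hdet
    rw [hsub] at h1
    obtain ⟨⟨γ, hγ⟩⟩ := hfJ
    change J * idB e m f = Ideal.span {γ} at hγ
    set δ : 𝓞 (QF 1 e m) := ((p * f.a + r * f.b : ℤ) : 𝓞 (QF 1 e m)) + r * tau e m f
    have h2 : Ideal.span {(f.a : 𝓞 (QF 1 e m))} * (J * idB e m g) = Ideal.span {δ * γ} := by
      calc Ideal.span {(f.a : 𝓞 (QF 1 e m))} * (J * idB e m g) =
          J * (Ideal.span {(f.a : 𝓞 (QF 1 e m))} * idB e m g) := by ring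
        _ = J * (Ideal.span {δ} * idB e m f) := by rw [← h1]
        _ = Ideal.span {δ} * (J * idB e m f) := by ring
        _ = Ideal.span {δ * γ} := by rw [hγ, Ideal.span_singleton_mul_span_singleton]
    have h3 : δ * γ ∈ Ideal.span {(f.a : 𝓞 (QF 1 e m))} := by
      have h4 : δ * γ ∈ Ideal.span {(f.a : 𝓞 (QF 1 e m))} * (J * idB e m g) := by
        rw [h2]; exact Ideal.mem_span_singleton_self _
      exact Ideal.mul_le_left h4
    obtain ⟨ε, hε⟩ := Ideal.mem_span_singleton.mp h3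
    refine ⟨⟨ε, ?_⟩⟩
    have h5 : Ideal.span {(f.a : 𝓞 (QF 1 e m))} ≠ 0 := by
      rw [Ne, Ideal.zero_eq_bot, Ideal.span_singleton_eq_bot, Int.cast_eq_zero]
      exact hfa.ne'
    apply mul_left_cancel₀ h5
    change _ * (J * idB e m g) = _
    rw [h2, hε]
    exact (Ideal.span_singleton_mul_span_singleton _ _).symm
  · obtain ⟨⟨α, hα⟩⟩ := hfJ
    obtain ⟨⟨β, hβ⟩⟩ := hC'
    have h1 := eqv_of_principal hD hneg hf C'.1.2.2.1 hfa C'.1.2.2.2 hJ hα hβ
    exact Subtype.ext (Subtype.ext (BForm.Red.eq_of_eqv C'.1.2.2.2 C'.2 hg (h1.trans hfg)))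

/-- the ideal class of a reduced form -/
noncomputable def toClass (C : BForm.RForm (e ^ 2 - 4 * m)) :
    ClassGroup (𝓞 (QF 1 e m)) :=
  ClassGroup.mk0 ⟨idB e m C.1.1, mem_nonZeroDivisors_of_ne_zero (idB_ne_bot _ C.1.2.2.2.ne')⟩

theorem isPrincipal_iff {J : (Ideal (𝓞 (QF 1 e m)))⁰} {C : BForm.RForm (e ^ 2 - 4 * m)} :
    ((J : Ideal (𝓞 (QF 1 e m))) * idB e m C.1.1).IsPrincipal ↔
      ClassGroup.mk0 J * toClass C = 1 := by
  rw [toClass, ← map_mul, ClassGroup.mk0_eq_one_iff]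
  rfl

/-- **The reduced forms correspond to the ideal classes** (Gauss, Dedekind). -/
theorem toClass_bijective (hD : IsFundDiscr (e ^ 2 - 4 * m)) (hneg : e ^ 2 - 4 * m < 0) :
    Function.Bijective (toClass (e := e) (m := m)) := by
  constructor
  · intro C C' h
    obtain ⟨J, hJ⟩ := ClassGroup.mk0_surjective (toClass C)⁻¹
    refine (existsUnique_red hD hneg (nonZeroDivisors.coe_ne_zero J)).unique ?_ ?_
    · rw [isPrincipal_iff, hJ, inv_mul_cancel]
    · rw [isPrincipal_iff, hJ, ← h, inv_mul_cancel]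
  · intro c
    obtain ⟨J, hJ⟩ := ClassGroup.mk0_surjective c⁻¹
    obtain ⟨C, hC, -⟩ := existsUnique_red hD hneg (nonZeroDivisors.coe_ne_zero J)
    refine ⟨C, ?_⟩
    change ((J : Ideal (𝓞 (QF 1 e m))) * idB e m C.1.1).IsPrincipal at hC
    rw [isPrincipal_iff, hJ] at hC
    exact (inv_mul_eq_one.mp hC).symm

theorem card_eq_finsum (hD : IsFundDiscr (e ^ 2 - 4 * m)) (hneg : e ^ 2 - 4 * m < 0) {n : ℕ}
    (hn : n ≠ 0) :
    Nat.card {J : Ideal (𝓞 (QF 1 e m)) // Ideal.absNorm J = n} =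
      ∑ᶠ C : BForm.RForm (e ^ 2 - 4 * m), Nat.card {J : Ideal (𝓞 (QF 1 e m)) //
        Ideal.absNorm J = n ∧ (J * idB e m C.1.1).IsPrincipal} := by
  have hfin : Finite (BForm.RForm (e ^ 2 - 4 * m)) :=
    Finite.of_injective _ (toClass_bijective hD hneg).1
  let _ : Fintype (BForm.RForm (e ^ 2 - 4 * m)) := Fintype.ofFinite _
  have hJfin : Finite {J : Ideal (𝓞 (QF 1 e m)) // Ideal.absNorm J = n} :=
    (Ideal.finite_setOfPred_absNorm_eq (S := 𝓞 (QF 1 e m)) n).to_subtype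
  have hfib : ∀ C : BForm.RForm (e ^ 2 - 4 * m), Finite {J : Ideal (𝓞 (QF 1 e m)) //
        Ideal.absNorm J = n ∧ (J * idB e m C.1.1).IsPrincipal} := fun C =>
    Finite.of_injective (fun J => (⟨J.1, J.2.1⟩ : {J : Ideal (𝓞 (QF 1 e m)) // Ideal.absNorm J = n}))
      (fun J J' h => Subtype.ext (congrArg (fun x => x.1) h))
  rw [finsum_eq_sum_of_fintype, ← Nat.card_sigma]
  symm
  refine Nat.card_congr (Equiv.ofBijective (fun x => ⟨x.2.1, x.2.2.1⟩) ⟨?_, ?_⟩)
  · rintro ⟨C, J, hJ⟩ ⟨C', J', hJ'⟩ h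
    have h1 : J = J' := congrArg (fun x => x.1) h
    subst h1
    have hJ0 : J ≠ ⊥ := by
      rintro rfl
      rw [Ideal.absNorm_bot] at hJ
      exact hn hJ.1.symm
    have h2 : C = C' := (existsUnique_red hD hneg hJ0).unique hJ.2 hJ'.2
    subst h2
    rfl
  · rintro ⟨J, hJ⟩
    have hJ0 : J ≠ ⊥ := by
      rintro rfl
      rw [Ideal.absNorm_bot] at hJ
      exact hn hJ.symm
    obtain ⟨C, hC, -⟩ := existsUnique_red hD hneg hJ0
    exact ⟨⟨C, J, hJ, hC⟩, rfl⟩

theorem mass_aux (hD : IsFundDiscr (e ^ 2 - 4 * m)) (hneg : e ^ 2 - 4 * m < 0) {n : ℕ}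
    (hn : n ≠ 0) :
    (∑ᶠ C : BForm.RForm (e ^ 2 - 4 * m),
      (Nat.card {v : ℤ × ℤ // C.1.1.val v.1 v.2 = n} : ℤ)) =
      reprs e m 1 * ∑ d ∈ n.divisors, kron (e ^ 2 - 4 * m) d := by
  have hfin : Finite (BForm.RForm (e ^ 2 - 4 * m)) :=
    Finite.of_injective _ (toClass_bijective hD hneg).1
  let _ : Fintype (BForm.RForm (e ^ 2 - 4 * m)) := Fintype.ofFinite _
  have h1 := card_absNorm_eq_sum_kron (K := QF 1 e m) finrank_QF' hn
  rw [discr_QF hD, card_eq_finsum hD hneg hn] at h1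
  rw [← h1, finsum_eq_sum_of_fintype, finsum_eq_sum_of_fintype, Nat.cast_sum, Finset.mul_sum]
  refine Finset.sum_congr rfl fun C _ => ?_
  rw [card_val_eq_mul hD hneg C.1.2.2.1 C.1.2.2.2 hn, Nat.cast_mul]

end

/-- the number of automorphs (units) of the discriminant `D < 0` -/
def unitsOf (D : ℤ) : ℕ := if D = -3 then 6 else if D = -4 then 4 else 2

/-- **Dirichlet's mass formula** (1839): for a fundamental discriminant `D < 0` and `n ≥ 1` the forms
of discriminant `D`, one of each class, represent `n` altogether `w ∑_{d ∣ n} (D / d)` times. -/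
theorem mass_formula {D : ℤ} (hD : IsFundDiscr D) (hneg : D < 0) {n : ℕ} (hn : n ≠ 0) :
    (∑ᶠ C : BForm.RForm D, (Nat.card {v : ℤ × ℤ // C.1.1.val v.1 v.2 = n} : ℤ)) =
      unitsOf D * ∑ d ∈ n.divisors, kron D d := by
  obtain ⟨b, c, hbc, hw⟩ : ∃ b c : ℤ, D = b ^ 2 - 4 * c ∧ reprs b c 1 = unitsOf D := by
    by_cases h3 : D = -3
    · exact ⟨1, 1, by rw [h3]; norm_num, by rw [h3, reprs_three]; rfl⟩
    by_cases h4 : D = -4
    · exact ⟨0, 1, by rw [h4]; norm_num, by rw [h4, reprs_four]; rfl⟩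
    obtain ⟨b, c, hbc⟩ := hD.exists_eq
    have h5 : D < -4 := by
      have : D % 4 = 0 ∨ D % 4 = 1 := by
        rcases hD with ⟨h, -⟩ | ⟨m, rfl, -⟩
        · exact Or.inr h
        · left; omega
      omega
    exact ⟨b, c, hbc, by rw [reprs_one_of_lt (by rw [← hbc]; exact h5), unitsOf, if_neg h3, if_neg h4]⟩
  subst hbc
  have hF := fact_QF hneg
  rw [mass_aux hD hneg hn, hw]

theorem card_classGroup_congr {K L : Type*} [Field K] [NumberField K] [Field L] [NumberField L]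
    (f : K ≃+* L) : Nat.card (ClassGroup (𝓞 K)) = Nat.card (ClassGroup (𝓞 L)) :=
  Nat.card_congr (ClassGroup.mulEquiv (RingOfIntegers.mapRingEquiv f)).toEquiv

/-- **The class number is the number of reduced forms** (Gauss, Dirichlet, Dedekind). -/
theorem classNumber_eq_card_red {K : Type*} [Field K] [NumberField K]
    (h2 : Module.finrank ℚ K = 2) (hneg : discr K < 0) :
    classNumber K = Nat.card (BForm.RForm (discr K)) := by
  obtain ⟨b, c, hF, hd, ⟨f⟩⟩ := exists_ringEquiv_discr (K := K) h2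
  have hD : IsFundDiscr (b ^ 2 - 4 * c) := hd ▸ isFundDiscr_discr h2
  rw [classNumber, ← Nat.card_eq_fintype_card, ← card_classGroup_congr f, hd]
  exact (Nat.card_congr (Equiv.ofBijective _ (toClass_bijective hD (hd ▸ hneg)))).symm

/-- **The class number is the number of classes of forms.** -/
theorem classNumber_eq_hForm {K : Type*} [Field K] [NumberField K]
    (h2 : Module.finrank ℚ K = 2) (hneg : discr K < 0) :
    classNumber K = BForm.hForm (discr K) := by
  rw [classNumber_eq_card_red h2 hneg, BForm.hForm_eq_card_red hneg]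

/-- the class number as the number of elements of an explicit finite set -/
theorem classNumber_eq_redSet {K : Type*} [Field K] [NumberField K]
    (h2 : Module.finrank ℚ K = 2) {n A : ℕ} (hd : discr K = -(n : ℤ)) (hn : 0 < n)
    (hA : n < 3 * (A + 1) ^ 2) : classNumber K = (BForm.redSet n A).card := by
  rw [classNumber_eq_hForm h2 (by rw [hd]; omega), hd, BForm.hForm_eq hn hA]

end Fermat.Agent.Cor.Bin
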