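import Fermat.Agent.Corollaries.Bin.Mass

/-!
# Class numbers of imaginary quadratic fields

* `classNumber_sqrt`: the class number of `ℚ(√-d)`, `d` squarefree, is the number of reduced forms of
  discriminant `-d` or `-4 d`;
* `class_number_table`: the class numbers of `ℚ(√-d)` for the squarefree `d < 100` and `d = 163`.
-/

set_option autoImplicit false

open NumberField

namespace Fermat.Agent.Cor.Bin

open Ray

/-- `- discr ℚ(√-d)`, `d` squarefree -/
def absDiscr (d : ℕ) : ℕ := if d % 4 = 3 then d else 4 * d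

theorem isFundDiscr_absDiscr {d : ℕ} (hd : Squarefree d) : IsFundDiscr (-(absDiscr d : ℤ)) := by
  have h0 : d ≠ 0 := hd.ne_zero
  have hd' : Squarefree (-(d : ℤ)) := by
    rw [← Int.squarefree_natAbs, Int.natAbs_neg, Int.natAbs_natCast]
    exact hd
  rw [absDiscr]
  split_ifs with h
  · exact Or.inl ⟨by omega, hd', by omega⟩
  · have h4 : d % 4 ≠ 0 := by
      intro h4
      obtain ⟨k, hk⟩ := Nat.dvd_of_mod_eq_zero h4
      have h5 := hd 2 ⟨k, by omega⟩
      exact absurd (Nat.isUnit_iff.mp h5) (by norm_num)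
    refine Or.inr ⟨-(d : ℤ), by push_cast; ring, ?_, hd'⟩
    omega

/-- the discriminant of `ℚ(√-d)` -/
theorem discr_sqrt {K : Type*} [Field K] [NumberField K] (h2 : Module.finrank ℚ K = 2) {d : ℕ}
    (hd : Squarefree d) {δ : K} (hδ : δ ^ 2 = -(d : K)) : discr K = -(absDiscr d : ℤ) := by
  have hD := isFundDiscr_absDiscr hd
  by_cases h : d % 4 = 3
  · refine discr_eq_of_sq h2 hD (δ := δ) ?_
    rw [hδ, absDiscr, if_pos h]
    push_cast
    ring
  · refine discr_eq_of_sq h2 hD (δ := 2 * δ) ?_
    rw [mul_pow, hδ, absDiscr, if_neg h]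
    push_cast
    ring

/-- **The class number of `ℚ(√-d)`** is the number of reduced forms of its discriminant. -/
theorem classNumber_sqrt {K : Type*} [Field K] [NumberField K] (h2 : Module.finrank ℚ K = 2)
    {d A : ℕ} (hd : Squarefree d) {δ : K} (hδ : δ ^ 2 = -(d : K))
    (hA : absDiscr d < 3 * (A + 1) ^ 2) :
    classNumber K = (BForm.redSet (absDiscr d) A).card := by
  have h0 : d ≠ 0 := hd.ne_zero
  refine classNumber_eq_redSet h2 (discr_sqrt h2 hd hδ) ?_ hA
  rw [absDiscr]
  split_ifs <;> omega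

/-- the table of the class numbers of `ℚ(√-d)` -/
def classTable : List (ℕ × ℕ) :=
  [(1, 1), (2, 1), (3, 1), (5, 2), (6, 2), (7, 1), (10, 2), (11, 1), (13, 2), (14, 4), (15, 2),
    (17, 4), (19, 1), (21, 4), (22, 2), (23, 3), (26, 6), (29, 6), (30, 4), (31, 3), (33, 4),
    (34, 4), (35, 2), (37, 2), (38, 6), (39, 4), (41, 8), (42, 4), (43, 1), (46, 4), (47, 5),
    (51, 2), (53, 6), (55, 4), (57, 4), (58, 2), (59, 3), (61, 6), (62, 8), (65, 8), (66, 8),
    (67, 1), (69, 8), (70, 4), (71, 7), (73, 4), (74, 10), (77, 8), (78, 4), (79, 5), (82, 4),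
    (83, 3), (85, 4), (86, 10), (87, 6), (89, 12), (91, 2), (93, 4), (94, 8), (95, 8), (97, 4),
    (163, 1)]

theorem table_check : ∀ x ∈ classTable, (BForm.redSet (absDiscr x.1) 11).card = x.2 := by
  decide +kernel

theorem table_squarefree : ∀ x ∈ classTable, Squarefree x.1 := by
  decide +kernel

theorem table_bound : ∀ x ∈ classTable, absDiscr x.1 < 3 * (11 + 1) ^ 2 := by
  decide +kernel

/-- the table contains all squarefree numbers below `100` -/
theorem table_complete : ∀ d < 100, Squarefree d → d ∈ classTable.map Prod.fst := by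
  decide +kernel

/-- **The class numbers of the fields `ℚ(√-d)`**, `d < 100` squarefree or `d = 163`. -/
theorem class_number_table {d h : ℕ} (hx : (d, h) ∈ classTable) {K : Type*} [Field K]
    [NumberField K] (h2 : Module.finrank ℚ K = 2) {δ : K} (hδ : δ ^ 2 = -(d : K)) :
    classNumber K = h :=
  (classNumber_sqrt h2 (table_squarefree _ hx) hδ (table_bound _ hx)).trans (table_check _ hx)

/-- the class number of `ℚ(√-5)` is `2` -/
theorem classNumber_sqrt_neg_five {K : Type*} [Field K] [NumberField K]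
    (h2 : Module.finrank ℚ K = 2) {δ : K} (hδ : δ ^ 2 = -5) : classNumber K = 2 :=
  class_number_table (d := 5) (by decide) h2 (by rw [hδ]; norm_num)

/-- the class number of `ℚ(√-23)` is `3` -/
theorem classNumber_sqrt_neg_twenty_three {K : Type*} [Field K] [NumberField K]
    (h2 : Module.finrank ℚ K = 2) {δ : K} (hδ : δ ^ 2 = -23) : classNumber K = 3 :=
  class_number_table (d := 23) (by decide) h2 (by rw [hδ]; norm_num)

/-- the class number of `ℚ(√-163)` is `1` -/
theorem classNumber_sqrt_neg_one_hundred_sixty_three {K : Type*} [Field K] [NumberField K]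
    (h2 : Module.finrank ℚ K = 2) {δ : K} (hδ : δ ^ 2 = -163) : classNumber K = 1 :=
  class_number_table (d := 163) (by decide) h2 (by rw [hδ]; norm_num)

end Fermat.Agent.Cor.Bin
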