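import Fermat.Agent.Corollaries.Bin.Factor
import Fermat.Agent.Corollaries.ZetaK.EulerK

/-!
# The number of ideals of given norm of a quadratic field

Let `K` be a quadratic field and `κ : ℕ →*₀ ℤ` the completely multiplicative function with
`κ p = (number of ideals of norm p) - 1` for every prime `p`.

* `dedekindZeta_eq_mul`: `ζ_K(s) = ζ(s) L(s, κ)`;
* `card_absNorm_eq_sum`: the number of ideals of norm `n ≥ 1` is `∑_{d ∣ n} κ d`.
-/

set_option autoImplicit false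

open NumberField IsDedekindDomain nonZeroDivisors

namespace Fermat.Agent.Cor.Bin

variable {K : Type*} [Field K] [NumberField K]

theorem finite_places {p : ℕ} (hp : p.Prime) :
    {v : HeightOneSpectrum (𝓞 K) | (p : 𝓞 K) ∈ v.asIdeal}.Finite := by
  have h1 : Ideal.span {(p : 𝓞 K)} ≠ 0 := by
    rw [Ne, Ideal.zero_eq_bot, Ideal.span_singleton_eq_bot, Nat.cast_eq_zero]
    exact hp.ne_zero
  refine (Ideal.finite_factors h1).subset fun v hv => ?_
  exact Ideal.dvd_iff_le.mpr ((Ideal.span_singleton_le_iff_mem _).mpr hv)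

/-- the primes above `p` -/
noncomputable def placesAbove (K : Type*) [Field K] [NumberField K] (p : Nat.Primes) :
    Finset (HeightOneSpectrum (𝓞 K)) := (finite_places (K := K) p.2).toFinset

theorem mem_placesAbove (p : Nat.Primes) (v : HeightOneSpectrum (𝓞 K)) :
    v ∈ placesAbove K p ↔ ((p : ℕ) : 𝓞 K) ∈ v.asIdeal := by
  rw [placesAbove, Set.Finite.mem_toFinset, Set.mem_ofPred_eq]

/-- there are at most two ideals of norm `p` in a quadratic field -/
theorem card_absNorm_le_two (h2 : Module.finrank ℚ K = 2) {p : ℕ} (hp : p.Prime) :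
    Nat.card {I : Ideal (𝓞 K) // Ideal.absNorm I = p} ≤ 2 := by
  classical
  rw [card_filter_eq hp (placesAbove K ⟨p, hp⟩) (mem_placesAbove ⟨p, hp⟩)]
  set S := (placesAbove K ⟨p, hp⟩).filter (fun v => Ideal.absNorm v.asIdeal = p) with hS
  have hd := prod_absNorm_dvd (K := K) (p := p) S (fun v hv =>
    (mem_placesAbove ⟨p, hp⟩ v).mp (Finset.mem_filter.mp hv).1)
  rw [h2, Finset.prod_congr rfl (fun v hv => (Finset.mem_filter.mp hv).2), Finset.prod_const] at hd
  exact (Nat.pow_dvd_pow_iff_le_right hp.one_lt).mp hd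

section Kappa

variable (κ : ℕ →*₀ ℤ)

theorem abs_kappa_le (h : ∀ p : ℕ, p.Prime → |κ p| ≤ 1) (n : ℕ) : |κ n| ≤ 1 := by
  induction n using Nat.recOnMul with
  | zero => simp
  | one => simp
  | prime p hp => exact h p hp
  | mul a b ha hb =>
    rw [map_mul, abs_mul]
    exact mul_le_one₀ ha (abs_nonneg _) hb

variable {κ} (h1 : ∀ n : ℕ, |κ n| ≤ 1)

include h1 in
theorem norm_kappa_le (n : ℕ) : ‖((κ n : ℤ) : ℂ)‖ ≤ 1 := by
  rw [Complex.norm_intCast]
  exact_mod_cast h1 n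

include h1 in
theorem LSeriesSummable_kappa {s : ℂ} (hs : 1 < s.re) :
    LSeriesSummable (fun n => ((κ n : ℤ) : ℂ)) s :=
  LSeriesSummable_of_bounded_of_one_lt_re (m := 1) (fun n _ => norm_kappa_le h1 n) hs

/-- the completely multiplicative function `κ(n) n ^ (-s)` -/
noncomputable def kappaHom (κ : ℕ →*₀ ℤ) (s : ℂ) : ℕ →*₀ ℂ where
  toFun n := ((κ n : ℤ) : ℂ) * (n : ℂ) ^ (-s)
  map_zero' := by simp
  map_one' := by simp
  map_mul' m n := by
    rw [map_mul, Nat.cast_mul, Complex.natCast_mul_natCast_cpow]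
    push_cast
    ring

theorem term_eq (s : ℂ) (n : ℕ) :
    LSeries.term (fun n => ((κ n : ℤ) : ℂ)) s n = kappaHom κ s n := by
  change _ = ((κ n : ℤ) : ℂ) * (n : ℂ) ^ (-s)
  rcases eq_or_ne n 0 with rfl | hn
  · simp
  · rw [LSeries.term_of_ne_zero hn, Complex.cpow_neg, div_eq_mul_inv]

include h1 in
theorem hasProd_kappa {s : ℂ} (hs : 1 < s.re) :
    HasProd (fun p : Nat.Primes => (1 - ((κ p : ℤ) : ℂ) * (p : ℂ) ^ (-s))⁻¹)
      (LSeries (fun n => ((κ n : ℤ) : ℂ)) s) := by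
  have hsum : Summable (‖kappaHom κ s ·‖) := by
    have h2 := (LSeriesSummable_kappa h1 hs).norm
    exact h2.congr fun n => by rw [term_eq]
  have h3 := EulerProduct.eulerProduct_completely_multiplicative_hasProd hsum
  have h4 : LSeries (fun n => ((κ n : ℤ) : ℂ)) s = ∑' n, kappaHom κ s n :=
    tsum_congr (term_eq s)
  rw [h4]
  exact h3

theorem one_sub_ne_zero' {p : Nat.Primes} {s : ℂ} (hs : 1 < s.re) {z : ℂ} (hz : ‖z‖ ≤ 1) :
    1 - z * (p : ℂ) ^ (-s) ≠ 0 := by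
  intro h
  have h2 : z * (p : ℂ) ^ (-s) = 1 := (sub_eq_zero.mp h).symm
  have h3 : ‖z * (p : ℂ) ^ (-s)‖ < 1 := by
    rw [norm_mul]
    have h4 : ‖((p : ℕ) : ℂ) ^ (-s)‖ < 1 := by
      rw [Complex.norm_natCast_cpow_of_pos p.2.pos, Complex.neg_re]
      exact Real.rpow_lt_one_of_one_lt_of_neg (by exact_mod_cast p.2.one_lt) (by linarith)
    calc ‖z‖ * ‖((p : ℕ) : ℂ) ^ (-s)‖ ≤ 1 * ‖((p : ℕ) : ℂ) ^ (-s)‖ :=
          mul_le_mul_of_nonneg_right hz (norm_nonneg _)
      _ < 1 := by rw [one_mul]; exact h4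
  rw [h2, norm_one] at h3
  exact lt_irrefl _ h3

end Kappa

/-- the function `κ` of the quadratic field `K` is bounded by `1` -/
theorem kappa_le_one (h2 : Module.finrank ℚ K = 2) {κ : ℕ →*₀ ℤ}
    (hκ : ∀ p : ℕ, p.Prime → (Nat.card {I : Ideal (𝓞 K) // Ideal.absNorm I = p} : ℤ) = 1 + κ p)
    (n : ℕ) : |κ n| ≤ 1 := by
  refine abs_kappa_le κ (fun p hp => ?_) n
  have h3 := card_absNorm_le_two (K := K) h2 hp
  have h4 := hκ p hp
  rw [abs_le]
  constructor <;> omega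

/-- **`ζ_K(s) = ζ(s) L(s, κ)` for a quadratic field `K`.** -/
theorem dedekindZeta_eq_mul (h2 : Module.finrank ℚ K = 2) {κ : ℕ →*₀ ℤ}
    (hκ : ∀ p : ℕ, p.Prime → (Nat.card {I : Ideal (𝓞 K) // Ideal.absNorm I = p} : ℤ) = 1 + κ p)
    {s : ℂ} (hs : 1 < s.re) :
    dedekindZeta K s = riemannZeta s * LSeries (fun n => ((κ n : ℤ) : ℂ)) s := by
  have h1 := kappa_le_one h2 hκ
  have hE := hasProd_euler (K := K) hs (placesAbove K) mem_placesAbove
  have hZ := riemannZeta_eulerProduct_hasProd hs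
  have hL := hasProd_kappa h1 hs
  have hall := (hE.mul hZ).mul hL
  have hone : (fun p : Nat.Primes => (∏ v ∈ placesAbove K p,
      (1 - (Ideal.absNorm v.asIdeal : ℂ) ^ (-s))) * (1 - (p : ℂ) ^ (-s))⁻¹ *
      (1 - ((κ p : ℤ) : ℂ) * (p : ℂ) ^ (-s))⁻¹) = fun _ => 1 := by
    funext p
    have hc : ((Nat.card {I : Ideal (𝓞 K) // Ideal.absNorm I = (p : ℕ)} : ℕ) : ℂ) - 1 =
        ((κ p : ℤ) : ℂ) := by
      have := congrArg (fun z : ℤ => (z : ℂ)) (hκ p p.2)
      push_cast at this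
      rw [this]
      ring
    rw [prod_local p.2 h2 (placesAbove K p) (mem_placesAbove p) s, hc]
    have ha : 1 - ((p : ℕ) : ℂ) ^ (-s) ≠ 0 := by
      have := one_sub_ne_zero' (p := p) hs (z := 1) (by simp)
      rwa [one_mul] at this
    have hb : 1 - ((κ p : ℤ) : ℂ) * ((p : ℕ) : ℂ) ^ (-s) ≠ 0 :=
      one_sub_ne_zero' (p := p) hs (norm_kappa_le h1 p)
    calc _ = ((1 - ((p : ℕ) : ℂ) ^ (-s)) * (1 - ((p : ℕ) : ℂ) ^ (-s))⁻¹) *
          ((1 - ((κ p : ℤ) : ℂ) * ((p : ℕ) : ℂ) ^ (-s)) *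
            (1 - ((κ p : ℤ) : ℂ) * ((p : ℕ) : ℂ) ^ (-s))⁻¹) := by ring
      _ = 1 := by rw [mul_inv_cancel₀ ha, mul_inv_cancel₀ hb, one_mul]
  rw [hone] at hall
  have h3 := hasProd_one.unique hall
  have h4 := dedekindZeta_ne_zero_of_one_lt_re (K := K) hs
  field_simp at h3
  exact h3

/-- the Dirichlet series of `ζ_K` converges absolutely for `re s > 1` -/
theorem LSeriesSummable_card {s : ℂ} (hs : 1 < s.re) :
    LSeriesSummable (fun n : ℕ => (Nat.card {I : Ideal (𝓞 K) // Ideal.absNorm I = n} : ℂ)) s := by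
  have hfib : ∀ n : ℕ, Finite {I : (Ideal (𝓞 K))⁰ // Ideal.absNorm (I : Ideal (𝓞 K)) = n} := by
    intro n
    have := (Ideal.finite_setOfPred_absNorm_eq (S := 𝓞 K) n).to_subtype
    exact Finite.of_injective (fun I : {I : (Ideal (𝓞 K))⁰ // Ideal.absNorm (I : Ideal (𝓞 K)) = n} =>
      (⟨I.1.1, I.2⟩ : {I : Ideal (𝓞 K) | Ideal.absNorm I = n})) (fun I J h => by
        have h1 := congrArg (fun x => x.1) h
        apply Subtype.ext; apply Subtype.ext; exact h1)
  let e : (Σ n : ℕ, {I : (Ideal (𝓞 K))⁰ // Ideal.absNorm (I : Ideal (𝓞 K)) = n}) ≃ (Ideal (𝓞 K))⁰ :=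
    Equiv.sigmaFiberEquiv (fun I : (Ideal (𝓞 K))⁰ => Ideal.absNorm (I : Ideal (𝓞 K)))
  have hsum : Summable fun c => nchar s (e c) :=
    (e.summable_iff).mpr (summable_norm_nchar hs).of_norm
  have h2 := hsum.sigma
  refine h2.congr fun n => ?_
  have h1 : ∀ c : {I : (Ideal (𝓞 K))⁰ // Ideal.absNorm (I : Ideal (𝓞 K)) = n},
      nchar s (e ⟨n, c⟩) = (n : ℂ) ^ (-s) := by
    intro c
    change (Ideal.absNorm (c.1 : Ideal (𝓞 K)) : ℂ) ^ (-s) = _
    rw [c.2]
  have := hfib n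
  have : Fintype {I : (Ideal (𝓞 K))⁰ // Ideal.absNorm (I : Ideal (𝓞 K)) = n} := Fintype.ofFinite _
  rw [tsum_congr h1, tsum_fintype, Finset.sum_const, Finset.card_univ, nsmul_eq_mul]
  rcases Nat.eq_zero_or_pos n with rfl | hn
  · have hs0 : -s ≠ 0 := by
      intro h
      rw [neg_eq_zero] at h
      rw [h, Complex.zero_re] at hs
      linarith
    rw [LSeries.term_zero, Nat.cast_zero, Complex.zero_cpow hs0, mul_zero]
  · rw [LSeries.term_of_ne_zero hn.ne', Complex.cpow_neg, div_eq_mul_inv]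
    congr 1
    rw [← Nat.card_eq_fintype_card]
    have : Nat.card {I : (Ideal (𝓞 K))⁰ // Ideal.absNorm (I : Ideal (𝓞 K)) = n} =
        Nat.card {I : Ideal (𝓞 K) // Ideal.absNorm I = n} := by
      refine Nat.card_congr
        { toFun := fun I => ⟨I.1.1, I.2⟩
          invFun := fun I => ⟨⟨I.1, mem_nonZeroDivisors_of_ne_zero (by
            rintro h
            have := I.2
            rw [h, Ideal.zero_eq_bot, Ideal.absNorm_bot] at this
            omega)⟩, I.2⟩
          left_inv := fun I => rfl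
          right_inv := fun I => rfl }
    rw [this]

/-- **Dirichlet's formula for ideals**: the number of ideals of norm `n` of the ring of integers of
a quadratic field is `∑_{d ∣ n} κ(d)`. -/
theorem card_absNorm_eq_sum (h2 : Module.finrank ℚ K = 2) {κ : ℕ →*₀ ℤ}
    (hκ : ∀ p : ℕ, p.Prime → (Nat.card {I : Ideal (𝓞 K) // Ideal.absNorm I = p} : ℤ) = 1 + κ p)
    {n : ℕ} (hn : n ≠ 0) :
    (Nat.card {I : Ideal (𝓞 K) // Ideal.absNorm I = n} : ℤ) = ∑ d ∈ n.divisors, κ d := by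
  have h1 := kappa_le_one h2 hκ
  let f : ℕ → ℂ := fun n => (Nat.card {I : Ideal (𝓞 K) // Ideal.absNorm I = n} : ℂ)
  let g : ℕ → ℂ := LSeries.convolution (1 : ℕ → ℂ) (fun n => ((κ n : ℤ) : ℂ))
  have hone : ∀ s : ℂ, 1 < s.re → LSeriesSummable (1 : ℕ → ℂ) s := fun s hs =>
    LSeriesSummable_one_iff.mpr hs
  have hf : LSeries.abscissaOfAbsConv f < ⊤ := by
    have h3 := (LSeriesSummable_card (K := K) (s := 2) (by norm_num)).abscissaOfAbsConv_le
    exact h3.trans_lt (EReal.coe_lt_top _)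
  have hg : LSeries.abscissaOfAbsConv g < ⊤ := by
    have h3 : LSeriesSummable g 2 :=
      (hone 2 (by norm_num)).convolution (LSeriesSummable_kappa h1 (by norm_num))
    exact h3.abscissaOfAbsConv_le.trans_lt (EReal.coe_lt_top _)
  have heq : (fun x : ℝ => LSeries f x) =ᶠ[Filter.atTop] fun x => LSeries g x := by
    filter_upwards [Filter.eventually_gt_atTop (1 : ℝ)] with x hx
    have hx' : 1 < (x : ℂ).re := by rwa [Complex.ofReal_re]
    change dedekindZeta K x = _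
    rw [dedekindZeta_eq_mul h2 hκ hx', LSeries_convolution' (hone _ hx') (LSeriesSummable_kappa h1 hx'),
      LSeries_one_eq_riemannZeta hx']
  have h3 := LSeries.eq_of_LSeries_eventually_eq hf hg heq hn
  have h4 : g n = ∑ d ∈ n.divisors, ((κ d : ℤ) : ℂ) := by
    simp only [g, LSeries.convolution_def, Pi.one_apply, one_mul]
    exact Nat.sum_divisorsAntidiagonal' (f := fun _ b => ((κ b : ℤ) : ℂ))
  have h5 : ((Nat.card {I : Ideal (𝓞 K) // Ideal.absNorm I = n} : ℤ) : ℂ) =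
      ((∑ d ∈ n.divisors, κ d : ℤ) : ℂ) := by
    rw [Int.cast_natCast, Int.cast_sum]
    exact h3.trans h4
  exact_mod_cast h5

end Fermat.Agent.Cor.Bin
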